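/-
T1B / F8 HECKE-N (brick 528, helper3), design v1 'q-dlog' (report 917): INTERFACE.

`A` a valuation subring of a field `K` with residue field `κ`.  A Laurent series `f ∈ K((q))` is
*normalisable* if, up to a nonzero constant, it is a quotient `a / s` of two `A`-integral series
with NONZERO reductions (for `K = ℚbar` and `f` a modular function this always holds: slice S3).
For such an `f` the logarithmic derivative of the reduction
    `dl A f := θ(ā)/ā - θ(s̄)/s̄ ∈ κ((q))`,  `θ = q d/dq`,
is well defined; it is additive in `f`, kills constants and (in characteristic `p`) `p`-th powers.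
On `p`-torsion classes `P = cls(D)`, `pD = div f`, `δ(P) := dl A f` is the map of the design.
-/
import Mathlib
import Fermat.Agent.IG.PR.Theta20

set_option autoImplicit false

noncomputable section

namespace Fermat.Agent.T1B.Hecke3

open HahnSeries ModularCurve Fermat.Agent.IG.PR.Theta20

variable {K : Type*} [Field K] (A : ValuationSubring K)

/-- The residue field of `A`. -/
abbrev Kap : Type _ := IsLocalRing.ResidueField ↥A

/-- Reduction `A((q)) → κ((q))`, coefficientwise. -/
abbrev redA : LaurentSeries ↥A →+* LaurentSeries (Kap A) := coeffMap (IsLocalRing.residue ↥A)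

/-- The inclusion `A((q)) → K((q))`. -/
abbrev embA : LaurentSeries ↥A →+* LaurentSeries K := coeffMap A.subtype

/-- `(c, a, s)` represents `f`: `c • f = a / s` with `ā ≠ 0`, `s̄ ≠ 0`. -/
def IsNormRep (f : LaurentSeries K) (c : K) (a s : LaurentSeries ↥A) : Prop :=
  c ≠ 0 ∧ redA A a ≠ 0 ∧ redA A s ≠ 0 ∧ HahnSeries.C c * f * embA A s = embA A a

/-- `f` is, up to a constant, a quotient of two `A`-integral series with nonzero reduction. -/
def Normalisable (f : LaurentSeries K) : Prop :=
  ∃ (c : K) (a s : LaurentSeries ↥A), IsNormRep A f c a s

/-- Logarithmic derivative `θ(g)/g` on Laurent series over a field. -/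
def dlog {k : Type*} [Field k] (g : LaurentSeries k) : LaurentSeries k := theta g * g⁻¹

open Classical in
/-- **The `q`-dlog of the reduction** of a normalisable series (0 otherwise). -/
def dl (f : LaurentSeries K) : LaurentSeries (Kap A) :=
  if h : Normalisable A f then
    dlog (redA A h.choose_spec.choose) - dlog (redA A h.choose_spec.choose_spec.choose)
  else 0

end Fermat.Agent.T1B.Hecke3
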