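/-
T1B / F8 HECKE-N (brick 528, helper3), slice S1a 'DLOG-ABS': the abstract core of the `q`-dlog.

* `dlog` on `k((q))`: additive on products, kills constants, `dlog (g^n) = n • dlog g`,
  compatibility with `twistU` (`q ↦ u q`) and `qExpand` (`q ↦ q^m`);
* `dl A f` is independent of the representation (`dl_eq_of_rep`), additive (`dl_mul`, `dl_inv`,
  `dl_pow`), kills constants (`dl_C_mul`) and `p`-th powers in residue characteristic `p`
  (`dl_pow_char`);
* transport along coefficientwise-compatible substitutions (`dl_map`, `dl_twistU`, `dl_qExpand`).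
-/
import Mathlib
import Fermat.Agent.T1B.Hecke3.Iface
import Fermat.Agent.IG.PR.ThetaV1
import Fermat.Agent.ES.KRON.KronCong24

set_option autoImplicit false

noncomputable section

namespace Fermat.Agent.T1B.Hecke3

open HahnSeries ModularCurve Fermat.Agent.IG.PR.Theta20 Fermat.Agent.ES.KRON.KronCong24

/-! ### `dlog` over a field -/

section DlogField

variable {k : Type*} [Field k]

@[simp] theorem dlog_zero : dlog (0 : LaurentSeries k) = 0 := by
  unfold dlog; rw [map_zero, zero_mul]

@[simp] theorem dlog_one : dlog (1 : LaurentSeries k) = 0 := by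
  unfold dlog; rw [theta_one, zero_mul]

theorem dlog_mul {g h : LaurentSeries k} (hg : g ≠ 0) (hh : h ≠ 0) :
    dlog (g * h) = dlog g + dlog h := by
  unfold dlog
  rw [theta_mul, mul_inv]
  field_simp

theorem dlog_C (c : k) : dlog (HahnSeries.C c : LaurentSeries k) = 0 := by
  unfold dlog; rw [theta_C, zero_mul]

theorem C_ne_zero' {c : k} (hc : c ≠ 0) : (HahnSeries.C c : LaurentSeries k) ≠ 0 := by
  intro h
  apply hc
  have := congrArg (fun x : LaurentSeries k => x.coeff 0) h
  simpa using this

theorem dlog_C_mul {c : k} (hc : c ≠ 0) (g : LaurentSeries k) :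
    dlog (HahnSeries.C c * g) = dlog g := by
  rcases eq_or_ne g 0 with rfl | hg
  · rw [mul_zero]
  · rw [dlog_mul (C_ne_zero' hc) hg, dlog_C, zero_add]

theorem dlog_inv (g : LaurentSeries k) : dlog g⁻¹ = - dlog g := by
  rcases eq_or_ne g 0 with rfl | hg
  · rw [inv_zero, dlog_zero, neg_zero]
  · have h := dlog_mul hg (inv_ne_zero hg)
    rw [mul_inv_cancel₀ hg, dlog_one] at h
    exact eq_neg_of_add_eq_zero_right h.symm

theorem dlog_pow (g : LaurentSeries k) (n : ℕ) : dlog (g ^ n) = n • dlog g := by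
  rcases eq_or_ne g 0 with rfl | hg
  · rcases Nat.eq_zero_or_pos n with rfl | hn
    · simp
    · rw [zero_pow hn.ne', dlog_zero, smul_zero]
  · induction n with
    | zero => simp
    | succ n ih => rw [pow_succ, dlog_mul (pow_ne_zero n hg) hg, ih, succ_nsmul]

theorem dlog_prod {ι : Type*} (s : Finset ι) (g : ι → LaurentSeries k) (hg : ∀ i ∈ s, g i ≠ 0) :
    dlog (∏ i ∈ s, g i) = ∑ i ∈ s, dlog (g i) := by
  classical
  induction s using Finset.induction_on with
  | empty => simp
  | insert a s ha ih =>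
    rw [Finset.prod_insert ha, Finset.sum_insert ha,
      dlog_mul (hg a (Finset.mem_insert_self a s))
        (Finset.prod_ne_zero_iff.2 fun i hi => hg i (Finset.mem_insert_of_mem hi)),
      ih fun i hi => hg i (Finset.mem_insert_of_mem hi)]

theorem dlog_pow_char (p : ℕ) [CharP k p] (g : LaurentSeries k) : dlog (g ^ p) = 0 := by
  rw [dlog_pow, ← Nat.cast_smul_eq_nsmul k p, CharP.cast_eq_zero, zero_smul]

/-- `θ` commutes with the twist `q ↦ u q`. -/
theorem theta_twistU' (u : kˣ) (g : LaurentSeries k) :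
    theta (twistU u g) = twistU u (theta g) := by
  ext n
  rw [theta_coeff, twistU_coeff, twistU_coeff, theta_coeff]
  ring

theorem dlog_twistU (u : kˣ) (g : LaurentSeries k) :
    dlog (twistU u g) = twistU u (dlog g) := by
  unfold dlog
  rw [theta_twistU', map_mul, map_inv₀]

theorem dlog_qExpand (m : ℕ) [NeZero m] (g : LaurentSeries k) :
    dlog (qExpand k m g) = (m : k) • qExpand k m (dlog g) := by
  unfold dlog
  have hm : (m : LaurentSeries k) = HahnSeries.C (m : k) := by simp
  rw [theta_qExpand, map_mul, map_inv₀, hm, mul_assoc, HahnSeries.C_mul_eq_smul]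

end DlogField

/-! ### Coefficient maps -/

section Coeff

variable {R S : Type*} [CommRing R] [CommRing S]

theorem coeffMap_C' (φ : R →+* S) (r : R) :
    coeffMap φ (HahnSeries.C r : LaurentSeries R) = HahnSeries.C (φ r) :=
  coeffMap_single φ 0 r

theorem coeffMap_injective' {φ : R →+* S} (hφ : Function.Injective φ) :
    Function.Injective (coeffMap φ) := by
  intro x y h
  ext n
  apply hφ
  have := congrArg (fun z : LaurentSeries S => z.coeff n) h
  simpa using this

theorem coeffMap_qExpand'' (φ : R →+* S) (m : ℕ) [NeZero m] (x : LaurentSeries R) :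
    coeffMap φ (qExpand R m x) = qExpand S m (coeffMap φ x) := by
  ext n
  by_cases hn : (m : ℤ) ∣ n
  · obtain ⟨j, rfl⟩ := hn
    rw [coeffMap_coeff, qExpand_coeff_mul, qExpand_coeff_mul, coeffMap_coeff]
  · rw [coeffMap_coeff, qExpand_coeff_of_not_dvd m x hn,
      qExpand_coeff_of_not_dvd m (coeffMap φ x) hn, map_zero]

end Coeff

/-! ### Independence of the representation -/

variable {K : Type*} [Field K] (A : ValuationSubring K)

theorem embA_injective : Function.Injective (embA A) :=
  coeffMap_injective' Subtype.val_injective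

variable {A}

/-- two primitive integral series that differ by a constant of `K` have the same reduced `dlog`. -/
theorem dlog_red_eq_of_C_mul {x y : LaurentSeries ↥A} (hx : redA A x ≠ 0) (hy : redA A y ≠ 0)
    {u : K} (hu : u ≠ 0) (h : HahnSeries.C u * embA A x = embA A y) :
    dlog (redA A y) = dlog (redA A x) := by
  rcases A.mem_or_inv_mem u with hu' | hu'
  · have hyx : y = HahnSeries.C (⟨u, hu'⟩ : ↥A) * x := by
      apply embA_injective A
      rw [map_mul, coeffMap_C']
      exact h.symm
    have hr : redA A y = HahnSeries.C (IsLocalRing.residue ↥A ⟨u, hu'⟩) * redA A x := by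
      rw [hyx, map_mul, coeffMap_C']
    have hne : IsLocalRing.residue ↥A ⟨u, hu'⟩ ≠ 0 := fun h0 =>
      hy (by rw [hr, h0, map_zero, zero_mul])
    rw [hr, dlog_C_mul hne]
  · have h' : HahnSeries.C u⁻¹ * embA A y = embA A x := by
      rw [← h, ← mul_assoc, ← map_mul, inv_mul_cancel₀ hu, map_one, one_mul]
    have hxy : x = HahnSeries.C (⟨u⁻¹, hu'⟩ : ↥A) * y := by
      apply embA_injective A
      rw [map_mul, coeffMap_C']
      exact h'.symm
    have hr : redA A x = HahnSeries.C (IsLocalRing.residue ↥A ⟨u⁻¹, hu'⟩) * redA A y := by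
      rw [hxy, map_mul, coeffMap_C']
    have hne : IsLocalRing.residue ↥A ⟨u⁻¹, hu'⟩ ≠ 0 := fun h0 =>
      hx (by rw [hr, h0, map_zero, zero_mul])
    rw [hr, dlog_C_mul hne]

theorem IsNormRep.embA_ne_zero {f : LaurentSeries K} {c : K} {a s : LaurentSeries ↥A}
    (h : IsNormRep A f c a s) : embA A a ≠ 0 := by
  intro h0
  apply h.2.1
  have : a = 0 := embA_injective A (by rw [h0, map_zero])
  rw [this, map_zero]

theorem IsNormRep.ne_zero {f : LaurentSeries K} {c : K} {a s : LaurentSeries ↥A}
    (h : IsNormRep A f c a s) : f ≠ 0 := by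
  rintro rfl
  apply h.embA_ne_zero
  rw [← h.2.2.2, mul_zero, zero_mul]

theorem IsNormRep.unique {f : LaurentSeries K} {c c' : K} {a s a' s' : LaurentSeries ↥A}
    (h : IsNormRep A f c a s) (h' : IsNormRep A f c' a' s') :
    dlog (redA A a) - dlog (redA A s) = dlog (redA A a') - dlog (redA A s') := by
  obtain ⟨hc, ha, hs, he⟩ := h
  obtain ⟨hc', ha', hs', he'⟩ := h'
  have hx : redA A (a * s') ≠ 0 := by rw [map_mul]; exact mul_ne_zero ha hs'
  have hy : redA A (a' * s) ≠ 0 := by rw [map_mul]; exact mul_ne_zero ha' hs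
  have hu : c' / c ≠ 0 := div_ne_zero hc' hc
  have hcc : (HahnSeries.C (c' / c) : LaurentSeries K) * HahnSeries.C c = HahnSeries.C c' := by
    rw [← map_mul, div_mul_cancel₀ _ hc]
  have hE : HahnSeries.C (c' / c) * embA A (a * s') = embA A (a' * s) := by
    rw [map_mul, map_mul, ← he, ← he']
    calc HahnSeries.C (c' / c) * (HahnSeries.C c * f * embA A s * embA A s')
        = (HahnSeries.C (c' / c) * HahnSeries.C c) * f * embA A s * embA A s' := by ring
      _ = HahnSeries.C c' * f * embA A s' * embA A s := by rw [hcc]; ring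
  have key := dlog_red_eq_of_C_mul hx hy hu hE
  rw [map_mul, map_mul, dlog_mul ha' hs, dlog_mul ha hs'] at key
  linear_combination (-1 : LaurentSeries (Kap A)) * key

theorem dl_eq_of_rep {f : LaurentSeries K} {c : K} {a s : LaurentSeries ↥A}
    (h : IsNormRep A f c a s) : dl A f = dlog (redA A a) - dlog (redA A s) := by
  have hN : Normalisable A f := ⟨c, a, s, h⟩
  unfold dl
  rw [dif_pos hN]
  exact IsNormRep.unique hN.choose_spec.choose_spec.choose_spec h

theorem dl_of_not {f : LaurentSeries K} (h : ¬ Normalisable A f) : dl A f = 0 := by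
  unfold dl
  rw [dif_neg h]

theorem Normalisable.ne_zero {f : LaurentSeries K} (h : Normalisable A f) : f ≠ 0 := by
  obtain ⟨c, a, s, h⟩ := h
  exact h.ne_zero

/-! ### Algebra of `dl` -/

theorem IsNormRep.mul {f g : LaurentSeries K} {c c' : K} {a s a' s' : LaurentSeries ↥A}
    (h : IsNormRep A f c a s) (h' : IsNormRep A g c' a' s') :
    IsNormRep A (f * g) (c * c') (a * a') (s * s') := by
  obtain ⟨hc, ha, hs, he⟩ := h
  obtain ⟨hc', ha', hs', he'⟩ := h'
  refine ⟨mul_ne_zero hc hc', ?_, ?_, ?_⟩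
  · rw [map_mul]; exact mul_ne_zero ha ha'
  · rw [map_mul]; exact mul_ne_zero hs hs'
  · rw [map_mul, map_mul, map_mul, ← he, ← he']
    ring

theorem Normalisable.mul {f g : LaurentSeries K} (hf : Normalisable A f) (hg : Normalisable A g) :
    Normalisable A (f * g) := by
  obtain ⟨c, a, s, h⟩ := hf
  obtain ⟨c', a', s', h'⟩ := hg
  exact ⟨_, _, _, h.mul h'⟩

theorem dl_mul {f g : LaurentSeries K} (hf : Normalisable A f) (hg : Normalisable A g) :
    dl A (f * g) = dl A f + dl A g := by
  obtain ⟨c, a, s, h⟩ := hf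
  obtain ⟨c', a', s', h'⟩ := hg
  rw [dl_eq_of_rep (h.mul h'), dl_eq_of_rep h, dl_eq_of_rep h', map_mul, map_mul,
    dlog_mul h.2.1 h'.2.1, dlog_mul h.2.2.1 h'.2.2.1]
  ring

theorem IsNormRep.inv {f : LaurentSeries K} {c : K} {a s : LaurentSeries ↥A}
    (h : IsNormRep A f c a s) : IsNormRep A f⁻¹ c⁻¹ s a := by
  have hf := h.ne_zero
  obtain ⟨hc, ha, hs, he⟩ := h
  refine ⟨inv_ne_zero hc, hs, ha, ?_⟩
  rw [← he]
  have hcc : (HahnSeries.C c⁻¹ : LaurentSeries K) * HahnSeries.C c = 1 := by
    rw [← map_mul, inv_mul_cancel₀ hc, map_one]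
  calc HahnSeries.C c⁻¹ * f⁻¹ * (HahnSeries.C c * f * embA A s)
      = (HahnSeries.C c⁻¹ * HahnSeries.C c) * (f⁻¹ * f) * embA A s := by ring
    _ = embA A s := by rw [hcc, inv_mul_cancel₀ hf, one_mul, one_mul]

theorem Normalisable.inv {f : LaurentSeries K} (hf : Normalisable A f) : Normalisable A f⁻¹ := by
  obtain ⟨c, a, s, h⟩ := hf
  exact ⟨_, _, _, h.inv⟩

theorem normalisable_inv_iff {f : LaurentSeries K} : Normalisable A f⁻¹ ↔ Normalisable A f :=
  ⟨fun h => by simpa using h.inv, Normalisable.inv⟩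

theorem dl_inv (f : LaurentSeries K) : dl A f⁻¹ = - dl A f := by
  by_cases hf : Normalisable A f
  · obtain ⟨c, a, s, h⟩ := hf
    rw [dl_eq_of_rep h.inv, dl_eq_of_rep h]
    ring
  · rw [dl_of_not hf, dl_of_not (fun h => hf (normalisable_inv_iff.1 h)), neg_zero]

theorem isNormRep_embA {a : LaurentSeries ↥A} (ha : redA A a ≠ 0) :
    IsNormRep A (embA A a) 1 a 1 := by
  refine ⟨one_ne_zero, ha, ?_, ?_⟩
  · rw [map_one]; exact one_ne_zero
  · rw [map_one, map_one, one_mul, mul_one]

theorem dl_embA {a : LaurentSeries ↥A} (ha : redA A a ≠ 0) :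
    dl A (embA A a) = dlog (redA A a) := by
  rw [dl_eq_of_rep (isNormRep_embA ha), map_one, dlog_one, sub_zero]

theorem isNormRep_C {d : K} (hd : d ≠ 0) :
    IsNormRep A (HahnSeries.C d : LaurentSeries K) d⁻¹ 1 1 := by
  refine ⟨inv_ne_zero hd, ?_, ?_, ?_⟩
  · rw [map_one]; exact one_ne_zero
  · rw [map_one]; exact one_ne_zero
  · rw [map_one, mul_one, ← map_mul, inv_mul_cancel₀ hd, map_one]

theorem normalisable_C {d : K} (hd : d ≠ 0) : Normalisable A (HahnSeries.C d : LaurentSeries K) :=
  ⟨_, _, _, isNormRep_C hd⟩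

theorem dl_C (d : K) : dl A (HahnSeries.C d : LaurentSeries K) = 0 := by
  rcases eq_or_ne d 0 with rfl | hd
  · rw [map_zero]
    exact dl_of_not fun h => h.ne_zero rfl
  · rw [dl_eq_of_rep (isNormRep_C hd), sub_self]

theorem normalisable_one : Normalisable A (1 : LaurentSeries K) := by
  have := normalisable_C (A := A) (one_ne_zero : (1 : K) ≠ 0)
  rwa [map_one] at this

theorem dl_one : dl A (1 : LaurentSeries K) = 0 := by
  have := dl_C (A := A) (1 : K)
  rwa [map_one] at this

theorem Normalisable.C_mul {f : LaurentSeries K} (hf : Normalisable A f) {d : K} (hd : d ≠ 0) :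
    Normalisable A (HahnSeries.C d * f) :=
  (normalisable_C hd).mul hf

theorem dl_C_mul {f : LaurentSeries K} (hf : Normalisable A f) {d : K} (hd : d ≠ 0) :
    dl A (HahnSeries.C d * f) = dl A f := by
  rw [dl_mul (normalisable_C hd) hf, dl_C, zero_add]

theorem Normalisable.pow {f : LaurentSeries K} (hf : Normalisable A f) (n : ℕ) :
    Normalisable A (f ^ n) := by
  induction n with
  | zero => rw [pow_zero]; exact normalisable_one
  | succ n ih => rw [pow_succ]; exact ih.mul hf

theorem dl_pow {f : LaurentSeries K} (hf : Normalisable A f) (n : ℕ) :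
    dl A (f ^ n) = n • dl A f := by
  induction n with
  | zero => rw [pow_zero, dl_one, zero_smul]
  | succ n ih => rw [pow_succ, dl_mul (hf.pow n) hf, ih, succ_nsmul]

/-- **`dl` kills `p`-th powers** in residue characteristic `p`. -/
theorem dl_pow_char (p : ℕ) [CharP (Kap A) p] {f : LaurentSeries K} (hf : Normalisable A f) :
    dl A (f ^ p) = 0 := by
  rw [dl_pow hf, ← Nat.cast_smul_eq_nsmul (Kap A) p, CharP.cast_eq_zero, zero_smul]

theorem Normalisable.prod {ι : Type*} (t : Finset ι) (f : ι → LaurentSeries K)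
    (hf : ∀ i ∈ t, Normalisable A (f i)) : Normalisable A (∏ i ∈ t, f i) := by
  classical
  induction t using Finset.induction_on with
  | empty => rw [Finset.prod_empty]; exact normalisable_one
  | insert a t ha ih =>
    rw [Finset.prod_insert ha]
    exact (hf a (Finset.mem_insert_self a t)).mul
      (ih fun i hi => hf i (Finset.mem_insert_of_mem hi))

theorem dl_prod {ι : Type*} (t : Finset ι) (f : ι → LaurentSeries K)
    (hf : ∀ i ∈ t, Normalisable A (f i)) : dl A (∏ i ∈ t, f i) = ∑ i ∈ t, dl A (f i) := by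
  classical
  induction t using Finset.induction_on with
  | empty => rw [Finset.prod_empty, Finset.sum_empty, dl_one]
  | insert a t ha ih =>
    rw [Finset.prod_insert ha, Finset.sum_insert ha,
      dl_mul (hf a (Finset.mem_insert_self a t))
        (Normalisable.prod t f fun i hi => hf i (Finset.mem_insert_of_mem hi)),
      ih fun i hi => hf i (Finset.mem_insert_of_mem hi)]

/-! ### Transport along coefficientwise-compatible substitutions -/

/-- A substitution `Φ` on `K((q))` with integral and residual versions. -/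
theorem IsNormRep.map {f : LaurentSeries K} {c : K} {a s : LaurentSeries ↥A}
    (Φ : LaurentSeries K →+* LaurentSeries K) (ΦA : LaurentSeries ↥A →+* LaurentSeries ↥A)
    (Φk : LaurentSeries (Kap A) →+* LaurentSeries (Kap A))
    (hC : ∀ c : K, Φ (HahnSeries.C c) = HahnSeries.C c)
    (hemb : ∀ x, Φ (embA A x) = embA A (ΦA x))
    (hred : ∀ x, redA A (ΦA x) = Φk (redA A x))
    (h : IsNormRep A f c a s) : IsNormRep A (Φ f) c (ΦA a) (ΦA s) := by
  obtain ⟨hc, ha, hs, he⟩ := h
  refine ⟨hc, ?_, ?_, ?_⟩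
  · rw [hred]; exact (map_ne_zero_iff Φk Φk.injective).2 ha
  · rw [hred]; exact (map_ne_zero_iff Φk Φk.injective).2 hs
  · rw [← hemb, ← hemb, ← he, map_mul, map_mul, hC]

theorem dl_map {f : LaurentSeries K}
    (Φ : LaurentSeries K →+* LaurentSeries K) (ΦA : LaurentSeries ↥A →+* LaurentSeries ↥A)
    (Φk : LaurentSeries (Kap A) →+* LaurentSeries (Kap A))
    (hC : ∀ c : K, Φ (HahnSeries.C c) = HahnSeries.C c)
    (hemb : ∀ x, Φ (embA A x) = embA A (ΦA x))
    (hred : ∀ x, redA A (ΦA x) = Φk (redA A x))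
    (T : LaurentSeries (Kap A) →+ LaurentSeries (Kap A))
    (hT : ∀ g, dlog (Φk g) = T (dlog g))
    (hf : Normalisable A f) : Normalisable A (Φ f) ∧ dl A (Φ f) = T (dl A f) := by
  obtain ⟨c, a, s, h⟩ := hf
  have h' := h.map Φ ΦA Φk hC hemb hred
  refine ⟨⟨_, _, _, h'⟩, ?_⟩
  rw [dl_eq_of_rep h', dl_eq_of_rep h, hred, hred, hT, hT, map_sub]

/-- the image in `K` of a unit of `A`. -/
abbrev unitK (u : (↥A)ˣ) : Kˣ := Units.map (A.subtype : ↥A →* K) u

/-- the image in the residue field of a unit of `A`. -/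
abbrev unitBar (u : (↥A)ˣ) : (Kap A)ˣ := Units.map (IsLocalRing.residue ↥A : ↥A →* Kap A) u

theorem twistU_C {R : Type*} [CommRing R] (u : Rˣ) (c : R) :
    twistU u (HahnSeries.C c : LaurentSeries R) = HahnSeries.C c := by
  ext n
  rw [twistU_coeff]
  by_cases hn : n = 0
  · subst hn; simp
  · have h0 : (HahnSeries.C c : LaurentSeries R).coeff n = 0 :=
      HahnSeries.coeff_single_of_ne hn
    rw [h0, mul_zero]

/-- **`dl` and the twist `q ↦ u q`**, `u` a unit of `A`. -/
theorem dl_twistU (u : (↥A)ˣ) {f : LaurentSeries K} (hf : Normalisable A f) :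
    Normalisable A (twistU (unitK u) f) ∧
      dl A (twistU (unitK u) f) = twistU (unitBar u) (dl A f) :=
  dl_map (twistU (unitK u)) (twistU u) (twistU (unitBar u)) (twistU_C _)
    (fun x => (coeffMap_twistU A.subtype u x).symm)
    (fun x => coeffMap_twistU (IsLocalRing.residue ↥A) u x)
    (twistU (unitBar u)).toAddMonoidHom (fun g => dlog_twistU _ g) hf

/-- **`dl` and the substitution `q ↦ q^m`**. -/
theorem dl_qExpand (m : ℕ) [NeZero m] {f : LaurentSeries K} (hf : Normalisable A f) :
    Normalisable A (qExpand K m f) ∧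
      dl A (qExpand K m f) = (m : Kap A) • qExpand (Kap A) m (dl A f) := by
  have := dl_map (A := A) (qExpand K m) (qExpand ↥A m) (qExpand (Kap A) m)
    (fun c => qExpand_C m c)
    (fun x => (coeffMap_qExpand'' A.subtype m x).symm)
    (fun x => coeffMap_qExpand'' (IsLocalRing.residue ↥A) m x)
    ((m : Kap A) • (qExpand (Kap A) m).toAddMonoidHom) (fun g => dlog_qExpand m g) hf
  exact this

end Fermat.Agent.T1B.Hecke3
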