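/-
T1B / F8 HECKE-N (brick 528, helper3), slice S4 'DELTA', abstract part.

`F / K` a function field in the Prelude's `AlgebraicCurve` vocabulary (`Place K F`, `Divisor K F`,
`Pic0 K F`), `e : F →+* K((q))` an expansion, `A` a valuation subring of `K` of residue
characteristic `p`.  Under `DeltaInputs` (every nonzero function has a normalisable expansion;
functions without zeros and poles are constants) the map
    `delta A e p : Pic0.torsion K F p →+ κ((q))`,  `cls(D) ↦ dl A (e f)`  for `p D = div f`
is well defined and additive (`delta_eq`), and any endomorphism of `Pic0` that acts on the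
functions `f_P` through a relation of `dl`'s is intertwined by `delta` (`delta_map_of_rel`).
-/
import Mathlib
import Fermat.Agent.T1B.Hecke3.DlAbs
import Fermat.Prelude.Def_AlgebraicCurve_DivisorClassGroup

set_option autoImplicit false

noncomputable section

namespace Fermat.Agent.T1B.Hecke3

open HahnSeries ModularCurve AlgebraicCurve

variable {K : Type*} [Field K] {F : Type*} [Field F] [Algebra K F]
variable (A : ValuationSubring K) (e : F →+* LaurentSeries K) (p : ℕ)

/-- The inputs of the construction of `delta`. -/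
structure DeltaInputs : Prop where
  /-- every nonzero function has a normalisable expansion (slice S3). -/
  norm : ∀ f : F, f ≠ 0 → Normalisable A (e f)
  /-- functions without zeros and poles are constants. -/
  const : ∀ f : F, f ≠ 0 → (∀ v : Place K F, v.ord f = 0) → ∃ c : K, f = algebraMap K F c
  /-- the expansion of a constant is the constant series. -/
  e_const : ∀ c : K, e (algebraMap K F c) = HahnSeries.C c
  /-- the residue characteristic is `p`. -/
  charP : CharP (Kap A) p

/-- `(D, f)` presents the `p`-torsion class `x`: `x = cls D`, `p D = div f`. -/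
def IsPData (x : Pic0 K F) (D : Divisor.degZero (K := K) (F := F)) (f : F) : Prop :=
  Pic0.mk D = x ∧ f ≠ 0 ∧ ∀ v : Place K F, (p : ℤ) * (D : Divisor K F) v = v.ord f

variable {p}

theorem exists_isPData {x : Pic0 K F} (hx : x ∈ Pic0.torsion K F p) :
    ∃ D f, IsPData (K := K) p x D f := by
  obtain ⟨D, rfl⟩ := Pic0.mk_surjective x
  rw [Pic0.mem_torsion] at hx
  have h1 : ((p : ℤ) • D : Divisor.degZero (K := K) (F := F)) ∈
      (Divisor.principal (K := K) (F := F)).addSubgroupOf (Divisor.degZero (K := K) (F := F)) := by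
    rw [← QuotientAddGroup.eq_zero_iff]
    exact hx
  rw [AddSubgroup.mem_addSubgroupOf] at h1
  obtain ⟨f, hf, hD⟩ := h1
  refine ⟨D, f, rfl, hf, fun v => ?_⟩
  rw [← hD v]
  simp

variable {A e}

/-- **Independence of the presentation.** -/
theorem IsPData.dl_eq (H : DeltaInputs A e p) {x : Pic0 K F}
    {D D' : Divisor.degZero (K := K) (F := F)} {f f' : F}
    (h : IsPData (K := K) p x D f) (h' : IsPData (K := K) p x D' f') :
    dl A (e f) = dl A (e f') := by
  have := H.charP
  obtain ⟨hx, hf, hD⟩ := h
  obtain ⟨hx', hf', hD'⟩ := h'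
  have hmk : Pic0.mk D = Pic0.mk D' := hx.trans hx'.symm
  have h1 : -D + D' ∈
      (Divisor.principal (K := K) (F := F)).addSubgroupOf (Divisor.degZero (K := K) (F := F)) :=
    QuotientAddGroup.eq.1 hmk
  rw [AddSubgroup.mem_addSubgroupOf] at h1
  obtain ⟨g, hg, hgD⟩ := h1
  -- `f' / (f g^p)` has trivial divisor
  have hgp : g ^ p ≠ 0 := pow_ne_zero p hg
  have hfg : f * g ^ p ≠ 0 := mul_ne_zero hf hgp
  have hq : f' * (f * g ^ p)⁻¹ ≠ 0 := mul_ne_zero hf' (inv_ne_zero hfg)
  have hord : ∀ v : Place K F, v.ord (f' * (f * g ^ p)⁻¹) = 0 := by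
    intro v
    have hgv := hgD v
    have e1 : ((-D + D' : Divisor.degZero (K := K) (F := F)) : Divisor K F) v =
        -((D : Divisor K F) v) + (D' : Divisor K F) v := by
      simp
    rw [e1] at hgv
    have hpow : v.ord (g ^ p) = (p : ℤ) * v.ord g := by
      have := v.ord_zpow g (p : ℤ)
      rwa [zpow_natCast] at this
    rw [v.ord_mul hf' (inv_ne_zero hfg), v.ord_inv, v.ord_mul hf hgp, hpow, ← hD v, ← hD' v,
      ← hgv]
    ring
  obtain ⟨c, hc⟩ := H.const _ hq hord
  have hc0 : c ≠ 0 := by
    rintro rfl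
    rw [map_zero] at hc
    exact hq hc
  have hf'eq : f' = algebraMap K F c * (f * g ^ p) := by
    rw [← hc, mul_assoc, inv_mul_cancel₀ hfg, mul_one]
  have hNf := H.norm f hf
  have hNg := H.norm g hg
  rw [hf'eq, map_mul, map_mul, map_pow, H.e_const,
    dl_C_mul (hNf.mul (hNg.pow p)) hc0, dl_mul hNf (hNg.pow p), dl_pow_char p hNg, add_zero]

variable (A e p)

open Classical in
/-- The underlying function of `delta`. -/
def deltaFun (x : Pic0 K F) : LaurentSeries (Kap A) :=
  if h : ∃ D f, IsPData (K := K) p x D f then dl A (e h.choose_spec.choose) else 0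

variable {A e p}

theorem deltaFun_eq (H : DeltaInputs A e p) {x : Pic0 K F}
    {D : Divisor.degZero (K := K) (F := F)} {f : F} (h : IsPData (K := K) p x D f) :
    deltaFun A e p x = dl A (e f) := by
  have hex : ∃ D f, IsPData (K := K) p x D f := ⟨D, f, h⟩
  unfold deltaFun
  rw [dif_pos hex]
  exact IsPData.dl_eq H hex.choose_spec.choose_spec h

theorem IsPData.add {x y : Pic0 K F} {D E : Divisor.degZero (K := K) (F := F)} {f g : F}
    (h : IsPData (K := K) p x D f) (h' : IsPData (K := K) p y E g) :
    IsPData (K := K) p (x + y) (D + E) (f * g) := by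
  obtain ⟨hx, hf, hD⟩ := h
  obtain ⟨hy, hg, hE⟩ := h'
  refine ⟨by rw [Pic0.mk_add, hx, hy], mul_ne_zero hf hg, fun v => ?_⟩
  rw [v.ord_mul hf hg, ← hD v, ← hE v]
  have : ((D + E : Divisor.degZero (K := K) (F := F)) : Divisor K F) v =
      (D : Divisor K F) v + (E : Divisor K F) v := by simp
  rw [this]
  ring

theorem isPData_zero : IsPData (K := K) (F := F) p 0 0 1 := by
  refine ⟨rfl, one_ne_zero, fun v => ?_⟩
  simp

variable (A e p)

/-- **The `q`-dlog map** `delta : Pic0[p] →+ κ((q))`. -/
def delta (H : DeltaInputs A e p) : Pic0.torsion K F p →+ LaurentSeries (Kap A) where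
  toFun x := deltaFun A e p (x : Pic0 K F)
  map_zero' := by
    show deltaFun A e p (0 : Pic0 K F) = 0
    rw [deltaFun_eq H isPData_zero, map_one, dl_one]
  map_add' x y := by
    obtain ⟨D, f, h⟩ := exists_isPData x.2
    obtain ⟨E, g, h'⟩ := exists_isPData y.2
    show deltaFun A e p ((x : Pic0 K F) + (y : Pic0 K F)) = _
    rw [deltaFun_eq H (h.add h'), deltaFun_eq H h, deltaFun_eq H h', map_mul,
      dl_mul (H.norm f h.2.1) (H.norm g h'.2.1)]

variable {A e p}

/-- **Computation of `delta`**: `delta (cls D) = dl A (e f)` whenever `p D = div f`. -/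
theorem delta_eq (H : DeltaInputs A e p) (x : Pic0.torsion K F p)
    {D : Divisor.degZero (K := K) (F := F)} {f : F}
    (h : IsPData (K := K) p (x : Pic0 K F) D f) : delta A e p H x = dl A (e f) :=
  deltaFun_eq H h

/-- **Formal equivariance.**  Let `T` be an additive endomorphism of `Pic0` such that for every
presentation `(D, f)` of a `p`-torsion class `x` there is a presentation `(D', f')` of `T x` with
`dl (e f') = Θ (dl (e f))`.  Then `delta (T x) = Θ (delta x)`. -/
theorem delta_map_of_rel (H : DeltaInputs A e p) (T : Pic0 K F →+ Pic0 K F)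
    (Θ : LaurentSeries (Kap A) →+ LaurentSeries (Kap A))
    (hT : ∀ (x : Pic0 K F) (D : Divisor.degZero (K := K) (F := F)) (f : F),
      IsPData (K := K) p x D f →
        ∃ D' f', IsPData (K := K) p (T x) D' f' ∧ dl A (e f') = Θ (dl A (e f)))
    (x : Pic0.torsion K F p) (hTx : T (x : Pic0 K F) ∈ Pic0.torsion K F p) :
    delta A e p H ⟨T (x : Pic0 K F), hTx⟩ = Θ (delta A e p H x) := by
  obtain ⟨D, f, h⟩ := exists_isPData x.2
  obtain ⟨D', f', h', hrel⟩ := hT _ D f h
  rw [delta_eq H ⟨T (x : Pic0 K F), hTx⟩ h', delta_eq H x h, hrel]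

/-- the image of a torsion class under an additive endomorphism is torsion. -/
theorem map_mem_torsion (T : Pic0 K F →+ Pic0 K F) {x : Pic0 K F}
    (hx : x ∈ Pic0.torsion K F p) : T x ∈ Pic0.torsion K F p := by
  rw [Pic0.mem_torsion] at hx ⊢
  rw [← map_zsmul, hx, map_zero]

/-- `delta x = 0` unfolded: the reduced expansion of `f_x` has vanishing logarithmic derivative. -/
theorem delta_eq_zero_iff (H : DeltaInputs A e p) (x : Pic0.torsion K F p)
    {D : Divisor.degZero (K := K) (F := F)} {f : F}
    (h : IsPData (K := K) p (x : Pic0 K F) D f) {c : K} {a s : LaurentSeries ↥A}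
    (hr : IsNormRep A (e f) c a s) :
    delta A e p H x = 0 ↔ dlog (redA A a) = dlog (redA A s) := by
  rw [delta_eq H x h, dl_eq_of_rep hr, sub_eq_zero]

end Fermat.Agent.T1B.Hecke3
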