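/-
T1B / F8 HECKE-N (brick 528, helper3), slice S4 'DELTA', concrete part, SIDE 1 (cusp `∞`).

`N` a level, `A` a valuation subring of `ℚbar` of residue characteristic `p`,
`iotaHom N : FF N →+* ℚbar((q))` the `q`-expansion at `∞`.  For `delta₁ := delta A (iotaHom N) p H`
(`H : DeltaInputs`, i.e. slice S3 + constants) on `J₀(N)[p] = Pic0.torsion ℚbar (FF N) p`:
* `delta_heckeT` : `delta₁ (T_ℓ x) = heckeT2 ℓ (delta₁ x)` for primes `ℓ ∤ N`, `ℓ ≠ p`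
  (`T_ℓ` = the Prelude's `heckeOperatorAlong`/`heckeOperatorBar`, `heckeT2 ℓ = U_ℓ + ℓ V_ℓ`);
* `delta_heckeU` : `delta₁ (U x) = Uop ℓ (delta₁ x)` for primes `ℓ ∣ N`, `ℓ ≠ p`, where
  `U = β_* α^* = heckePic0BarTranspose` (the decision of report 941).
Inputs: `DivNorm27` (`f_{T P} = N(f_P)`), `ConjNorm11` / `UProd27` (product formulas),
`Hecke7.DlHecke` (`dl` of the product formulas).
-/
import Mathlib
import Fermat.Agent.T1B.Hecke3.Delta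
import Fermat.Agent.T1B.Hecke7.DlHecke
import Fermat.Agent.T1B.DivNorm27.Main
import Fermat.Agent.T1B.UProd27.NormBeta
import Fermat.Agent.ES.KRON.ConjNorm11

set_option autoImplicit false
set_option linter.unusedSectionVars false

noncomputable section

namespace Fermat.Agent.T1B.Hecke3

open HahnSeries ModularCurve AlgebraicCurve IntermediateField
open Fermat.Agent.X0 Fermat.Agent.T1B.Hecke7 Fermat.Agent.T1B.DivNorm27
open Fermat.Agent.ES.HECKE.PointFormula28 Fermat.Agent.ES.HECKE.InputsMain19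
open Fermat.Agent.ES.KRON.KronCong24

variable (N : ℕ) [NeZero N]

/-- The `q`-expansion at `∞`, `FF N →+* ℚbar((q))` (the coercion). -/
def iotaHom : FF N →+* LaurentSeries Kbar := (modularFunctionFieldBar N).val.toRingHom

@[simp] theorem iotaHom_apply (f : FF N) : iotaHom N f = (f : LaurentSeries Kbar) := rfl

variable {N}
variable (A : ValuationSubring Kbar) (p : ℕ)

/-- `heckeT2 ℓ` as an additive map. -/
def heckeT2Hom {k : Type*} [Field k] (ℓ : ℕ) [NeZero ℓ] : LaurentSeries k →+ LaurentSeries k :=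
  Uop ℓ + (ℓ : k) • (qExpand k ℓ).toAddMonoidHom

theorem heckeT2Hom_apply {k : Type*} [Field k] (ℓ : ℕ) [NeZero ℓ] (g : LaurentSeries k) :
    heckeT2Hom ℓ g = heckeT2 ℓ g := rfl

/-- presentation data in the `IsDivOf` form of `DivNorm27`. -/
theorem IsPData.isDivOf {x : Pic0 Kbar (FF N)} {D : Divisor.degZero (K := Kbar) (F := FF N)}
    {f : FF N} (h : IsPData (K := Kbar) p x D f) :
    IsDivOf (p • (D : Divisor Kbar (FF N))) f := fun v => by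
  rw [Finsupp.smul_apply, nsmul_eq_mul]
  exact h.2.2 v

theorem isPData_of_isDivOf {x : Pic0 Kbar (FF N)} {D : Divisor.degZero (K := Kbar) (F := FF N)}
    {f : FF N} (hx : Pic0.mk D = x) (hf : f ≠ 0)
    (h : IsDivOf (p • (D : Divisor Kbar (FF N))) f) : IsPData (K := Kbar) p x D f := by
  refine ⟨hx, hf, fun v => ?_⟩
  have := h v
  rwa [Finsupp.smul_apply, nsmul_eq_mul] at this

variable {A p}

/-- **`T_ℓ`-equivariance of `delta` for a general expansion `e`**, given the product formula of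
`N_α (β f)` for `e` (side 1: `ConjNorm11`; side 2: `e = W_p`, slice ALP). -/
theorem delta_heckePic0Bar_of_prod (e : FF N →+* LaurentSeries Kbar) (H : DeltaInputs A e p)
    {ℓ : ℕ} [NeZero ℓ] (hℓ : ℓ.Prime) (hℓp : (ℓ : Kap A) ≠ 0)
    [HasPrincipalDivisors Qb (laurentBaseChange Qb (modularFunctionFieldFull (N * ℓ)))]
    (hα : HeckeAlphaBarIntegral Qb N ℓ) (hβ : HeckeBetaBarIntegral Qb N ℓ)
    (hFI : FundamentalIdentityAlong Qb (heckeBetaBar Qb N ℓ) hβ)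
    (hfin : FiniteAlong Qb (heckeAlphaBar Qb N ℓ))
    (hN : NormFormulaAlong Qb (heckeAlphaBar Qb N ℓ) hfin)
    (ζ : Kbarˣ) (hζ : IsPrimitiveRoot ζ ℓ)
    (hprod : ∀ f : FF N, qExpand Kbar ℓ
        (e (normAlong (heckeAlphaBar Qb N ℓ) (heckeBetaBar Qb N ℓ f))) =
      (∏ b ∈ Finset.range ℓ, twistU (ζ ^ b) (e f)) * qExpand Kbar (ℓ ^ 2) (e f))
    (x : Pic0.torsion Kbar (FF N) p) :
    delta A e p H
        ⟨heckePic0Bar hα hβ hFI hfin hN (x : Pic0 Kbar (FF N)), map_mem_torsion _ x.2⟩ =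
      heckeT2 ℓ (delta A e p H x) := by
  rw [← heckeT2Hom_apply]
  refine delta_map_of_rel H (heckePic0Bar hα hβ hFI hfin hN) (heckeT2Hom ℓ) ?_ x _
  intro y D f hD
  obtain ⟨h1, h2⟩ := heckePic0Bar_mk_nsmul hℓ hα hβ hFI hfin hN D hD.2.1 (hD.isDivOf p)
  have hNf : normAlong (heckeAlphaBar Qb N ℓ) (heckeBetaBar Qb N ℓ f) ≠ 0 :=
    normAlong_alpha_beta_ne_zero hℓ hD.2.1
  refine ⟨_, _, isPData_of_isDivOf p (by rw [← hD.1, h1]) hNf h2, ?_⟩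
  rw [heckeT2Hom_apply]
  exact dl_eq_of_T A ℓ hℓp ζ hζ (H.norm _ hNf) (H.norm f hD.2.1) (hprod f)

/-- **`U_ℓ`-equivariance of `delta` for a general expansion `e`** (transposed correspondence
`β_* α^*`), given the product formula of `N_β (α f)` for `e`. -/
theorem delta_heckePic0BarTranspose_of_prod (e : FF N →+* LaurentSeries Kbar)
    (H : DeltaInputs A e p) {ℓ : ℕ} [NeZero ℓ] (hℓ : ℓ.Prime) (hℓp : (ℓ : Kap A) ≠ 0)
    [HasPrincipalDivisors Qb (laurentBaseChange Qb (modularFunctionFieldFull (N * ℓ)))]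
    (hα : HeckeAlphaBarIntegral Qb N ℓ) (hβ : HeckeBetaBarIntegral Qb N ℓ)
    (hFI : FundamentalIdentityAlong Qb (heckeAlphaBar Qb N ℓ) hα)
    (hfin : FiniteAlong Qb (heckeBetaBar Qb N ℓ))
    (hN : NormFormulaAlong Qb (heckeBetaBar Qb N ℓ) hfin)
    (ζ : Kbarˣ) (hζ : IsPrimitiveRoot ζ ℓ)
    (hprod : ∀ f : FF N, qExpand Kbar ℓ
        (e (normAlong (heckeBetaBar Qb N ℓ) (heckeAlphaBar Qb N ℓ f))) =
      ∏ b ∈ Finset.range ℓ, twistU (ζ ^ b) (e f))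
    (x : Pic0.torsion Kbar (FF N) p) :
    delta A e p H
        ⟨heckePic0BarTranspose hα hβ hFI hfin hN (x : Pic0 Kbar (FF N)),
          map_mem_torsion _ x.2⟩ =
      Uop ℓ (delta A e p H x) := by
  refine delta_map_of_rel H (heckePic0BarTranspose hα hβ hFI hfin hN) (Uop ℓ) ?_ x _
  intro y D f hD
  obtain ⟨h1, h2⟩ := heckePic0BarTranspose_mk_nsmul hℓ hα hβ hFI hfin hN D hD.2.1 (hD.isDivOf p)
  have hNf : normAlong (heckeBetaBar Qb N ℓ) (heckeAlphaBar Qb N ℓ f) ≠ 0 :=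
    normAlong_beta_alpha_ne_zero hℓ hD.2.1
  refine ⟨_, _, isPData_of_isDivOf p (by rw [← hD.1, h1]) hNf h2, ?_⟩
  exact dl_eq_of_U A ℓ hℓp ζ hζ (H.norm _ hNf) (H.norm f hD.2.1) (hprod f)

/-- existence of a primitive `ℓ`-th root of unity of `ℚbar`, as a unit. -/
theorem exists_primitiveRoot_unit' (ℓ : ℕ) [NeZero ℓ] : ∃ ζ : Kbarˣ, IsPrimitiveRoot ζ ℓ := by
  obtain ⟨ζ, hζ⟩ := HasEnoughRootsOfUnity.exists_primitiveRoot Kbar ℓ
  have hζ0 : ζ ≠ 0 := hζ.ne_zero (NeZero.ne ℓ)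
  refine ⟨Units.mk0 ζ hζ0, ?_⟩
  rw [← IsPrimitiveRoot.coe_units_iff]
  exact hζ

/-- **`T_ℓ`-equivariance of `delta₁`** (`ℓ ∤ N`, `ℓ` invertible in the residue field), for the
correspondence `heckePic0Bar` with arbitrary proofs of its inputs. -/
theorem delta_heckePic0Bar (H : DeltaInputs A (iotaHom N) p) {ℓ : ℕ} [NeZero ℓ] (hℓ : ℓ.Prime)
    (hℓN : ¬ ℓ ∣ N) (hℓp : (ℓ : Kap A) ≠ 0)
    [HasPrincipalDivisors Qb (laurentBaseChange Qb (modularFunctionFieldFull (N * ℓ)))]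
    (hα : HeckeAlphaBarIntegral Qb N ℓ) (hβ : HeckeBetaBarIntegral Qb N ℓ)
    (hFI : FundamentalIdentityAlong Qb (heckeBetaBar Qb N ℓ) hβ)
    (hfin : FiniteAlong Qb (heckeAlphaBar Qb N ℓ))
    (hN : NormFormulaAlong Qb (heckeAlphaBar Qb N ℓ) hfin)
    (x : Pic0.torsion Kbar (FF N) p) :
    delta A (iotaHom N) p H
        ⟨heckePic0Bar hα hβ hFI hfin hN (x : Pic0 Kbar (FF N)), map_mem_torsion _ x.2⟩ =
      heckeT2 ℓ (delta A (iotaHom N) p H x) := by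
  obtain ⟨ζ, hζ⟩ := HasEnoughRootsOfUnity.exists_primitiveRoot Kbar ℓ
  have hζ0 : ζ ≠ 0 := hζ.ne_zero (NeZero.ne ℓ)
  set ζu : Kbarˣ := Units.mk0 ζ hζ0 with hζu
  have hζu' : IsPrimitiveRoot ζu ℓ := by
    rw [← IsPrimitiveRoot.coe_units_iff]
    exact hζ
  rw [← heckeT2Hom_apply]
  refine delta_map_of_rel H (heckePic0Bar hα hβ hFI hfin hN) (heckeT2Hom ℓ) ?_ x _
  intro y D f hD
  obtain ⟨h1, h2⟩ := heckePic0Bar_mk_nsmul hℓ hα hβ hFI hfin hN D hD.2.1 (hD.isDivOf p)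
  have hNf : normAlong (heckeAlphaBar Qb N ℓ) (heckeBetaBar Qb N ℓ f) ≠ 0 :=
    normAlong_alpha_beta_ne_zero hℓ hD.2.1
  refine ⟨_, _, isPData_of_isDivOf p (by rw [← hD.1, h1]) hNf h2, ?_⟩
  rw [heckeT2Hom_apply]
  exact dl_eq_of_T A ℓ hℓp ζu hζu' (H.norm _ hNf) (H.norm f hD.2.1)
    (Fermat.Agent.ES.KRON.ConjNorm11.qExpand_normAlong_alpha_beta N ℓ hℓ hℓN ζu hζu' f)

/-- **`U_ℓ`-equivariance of `delta₁`** (`ℓ ∣ N`, `ℓ` invertible in the residue field), for the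
TRANSPOSED correspondence `β_* α^* = heckePic0BarTranspose`. -/
theorem delta_heckePic0BarTranspose (H : DeltaInputs A (iotaHom N) p) {ℓ : ℕ} [NeZero ℓ]
    (hℓ : ℓ.Prime) (hℓN : ℓ ∣ N) (hℓp : (ℓ : Kap A) ≠ 0)
    [HasPrincipalDivisors Qb (laurentBaseChange Qb (modularFunctionFieldFull (N * ℓ)))]
    (hα : HeckeAlphaBarIntegral Qb N ℓ) (hβ : HeckeBetaBarIntegral Qb N ℓ)
    (hFI : FundamentalIdentityAlong Qb (heckeAlphaBar Qb N ℓ) hα)
    (hfin : FiniteAlong Qb (heckeBetaBar Qb N ℓ))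
    (hN : NormFormulaAlong Qb (heckeBetaBar Qb N ℓ) hfin)
    (x : Pic0.torsion Kbar (FF N) p) :
    delta A (iotaHom N) p H
        ⟨heckePic0BarTranspose hα hβ hFI hfin hN (x : Pic0 Kbar (FF N)),
          map_mem_torsion _ x.2⟩ =
      Uop ℓ (delta A (iotaHom N) p H x) := by
  obtain ⟨ζ, hζ⟩ := HasEnoughRootsOfUnity.exists_primitiveRoot Kbar ℓ
  have hζ0 : ζ ≠ 0 := hζ.ne_zero (NeZero.ne ℓ)
  set ζu : Kbarˣ := Units.mk0 ζ hζ0 with hζu
  have hζu' : IsPrimitiveRoot ζu ℓ := by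
    rw [← IsPrimitiveRoot.coe_units_iff]
    exact hζ
  refine delta_map_of_rel H (heckePic0BarTranspose hα hβ hFI hfin hN) (Uop ℓ) ?_ x _
  intro y D f hD
  obtain ⟨h1, h2⟩ := heckePic0BarTranspose_mk_nsmul hℓ hα hβ hFI hfin hN D hD.2.1 (hD.isDivOf p)
  have hNf : normAlong (heckeBetaBar Qb N ℓ) (heckeAlphaBar Qb N ℓ f) ≠ 0 :=
    normAlong_beta_alpha_ne_zero hℓ hD.2.1
  refine ⟨_, _, isPData_of_isDivOf p (by rw [← hD.1, h1]) hNf h2, ?_⟩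
  exact dl_eq_of_U A ℓ hℓp ζu hζu' (H.norm _ hNf) (H.norm f hD.2.1)
    (Fermat.Agent.T1B.UProd27.qExpand_normAlong_beta_alpha hℓ hℓN hζu' f)

/-- **`T_ℓ`-equivariance of `delta₁` for the Prelude's Hecke operator** `heckeOperatorBar N ℓ`
(`ℓ ∤ N`, `ℓ ≠ p`). -/
theorem delta_heckeOperatorBar (H : DeltaInputs A (iotaHom N) p) (ℓ : Nat.Primes)
    (hℓN : ¬ (ℓ : ℕ) ∣ N) (hℓp : ((ℓ : ℕ) : Kap A) ≠ 0) (x : Pic0.torsion Kbar (FF N) p)
    (h : heckeOperatorBar N ℓ (x : Pic0 Kbar (FF N)) ∈ Pic0.torsion Kbar (FF N) p) :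
    delta A (iotaHom N) p H ⟨heckeOperatorBar N ℓ (x : Pic0 Kbar (FF N)), h⟩ =
      (haveI : NeZero (ℓ : ℕ) := ⟨ℓ.2.ne_zero⟩; heckeT2 (ℓ : ℕ) (delta A (iotaHom N) p H x)) := by
  have : NeZero (ℓ : ℕ) := ⟨ℓ.2.ne_zero⟩
  have := hasPrincipalDivisors_level N (ℓ : ℕ)
  have hop := heckeOperatorAlong_eq (heckeAlphaBarIntegral_all N (ℓ : ℕ) ℓ.2)
    (heckeBetaBarIntegral_all N (ℓ : ℕ) ℓ.2) (fundamentalIdentityAlong_beta_all N (ℓ : ℕ) ℓ.2)
    (finiteAlong_alpha_all N (ℓ : ℕ) ℓ.2) (normFormulaAlong_alpha_all N (ℓ : ℕ) ℓ.2)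
  have key := delta_heckePic0Bar H ℓ.2 hℓN hℓp (heckeAlphaBarIntegral_all N (ℓ : ℕ) ℓ.2)
    (heckeBetaBarIntegral_all N (ℓ : ℕ) ℓ.2) (fundamentalIdentityAlong_beta_all N (ℓ : ℕ) ℓ.2)
    (finiteAlong_alpha_all N (ℓ : ℕ) ℓ.2) (normFormulaAlong_alpha_all N (ℓ : ℕ) ℓ.2) x
  rw [← key]
  congr 1
  apply Subtype.ext
  show heckeOperatorBar N ℓ (x : Pic0 Kbar (FF N)) = _
  rw [heckeOperatorBar_apply, hop]

end Fermat.Agent.T1B.Hecke3
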