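/-
T1B / F8 HECKE-N (brick 528, helper3): transport of eigen-conditions along an intertwining
additive map (pure algebra).

`H ≤ G` a subgroup, `δ : H →+ S` additive, `T : Module.End ℤ G` preserving `H`,
`Θ : Module.End ℤ S` with `δ (T x) = Θ (δ x)`.  Then `δ (c(T) x) = c(Θ) (δ x)` for every integer
polynomial `c`; in particular eigenvectors go to eigenvectors (or to `0`) and `c(T) x = 0` implies
`c(Θ) (δ x) = 0`.  Applied to `δ = delta`, `T = T_ℓ, U_2` on `J₀(N)[p]`, `Θ = heckeT2 ℓ, Uop 2`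
this moves the occurrence subgroup `Top68.OccSub` into the corresponding space of `q`-series.
-/
import Mathlib

set_option autoImplicit false

noncomputable section

namespace Fermat.Agent.T1B.Hecke3

variable {G S : Type*} [AddCommGroup G] [AddCommGroup S]

/-- powers of an intertwined operator are intertwined. -/
theorem intertwine_pow (H : AddSubgroup G) (δ : H →+ S) (T : Module.End ℤ G)
    (Θ : Module.End ℤ S) (hTH : ∀ x ∈ H, T x ∈ H)
    (hδ : ∀ x : H, δ ⟨T x, hTH x x.2⟩ = Θ (δ x)) (n : ℕ) (x : H) :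
    ∃ h : (T ^ n) (x : G) ∈ H, δ ⟨(T ^ n) (x : G), h⟩ = (Θ ^ n) (δ x) := by
  induction n with
  | zero => exact ⟨by simp, by simp⟩
  | succ n ih =>
    obtain ⟨h, hh⟩ := ih
    refine ⟨?_, ?_⟩
    · rw [pow_succ', Module.End.mul_apply]
      exact hTH _ h
    · have := hδ ⟨(T ^ n) (x : G), h⟩
      simp only [pow_succ', Module.End.mul_apply]
      rw [this, hh]

/-- **polynomials in an intertwined operator are intertwined.** -/
theorem intertwine_aeval (H : AddSubgroup G) (δ : H →+ S) (T : Module.End ℤ G)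
    (Θ : Module.End ℤ S) (hTH : ∀ x ∈ H, T x ∈ H)
    (hδ : ∀ x : H, δ ⟨T x, hTH x x.2⟩ = Θ (δ x)) (c : Polynomial ℤ) (x : H) :
    ∃ h : Polynomial.aeval T c (x : G) ∈ H,
      δ ⟨Polynomial.aeval T c (x : G), h⟩ = Polynomial.aeval Θ c (δ x) := by
  induction c using Polynomial.induction_on' with
  | add c d hc hd =>
    obtain ⟨h1, e1⟩ := hc
    obtain ⟨h2, e2⟩ := hd
    have hsum : Polynomial.aeval T (c + d) (x : G) =
        Polynomial.aeval T c (x : G) + Polynomial.aeval T d (x : G) := by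
      rw [map_add, LinearMap.add_apply]
    refine ⟨by rw [hsum]; exact H.add_mem h1 h2, ?_⟩
    have : (⟨Polynomial.aeval T (c + d) (x : G), by rw [hsum]; exact H.add_mem h1 h2⟩ : H) =
        ⟨_, h1⟩ + ⟨_, h2⟩ := Subtype.ext hsum
    rw [this, map_add, e1, e2, map_add, LinearMap.add_apply]
  | monomial n a =>
    obtain ⟨h, hh⟩ := intertwine_pow H δ T Θ hTH hδ n x
    have hmon : Polynomial.aeval T (Polynomial.monomial n a) (x : G) = a • (T ^ n) (x : G) := by
      rw [Polynomial.aeval_monomial, Module.End.mul_apply]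
      simp
    have hmon' : Polynomial.aeval Θ (Polynomial.monomial n a) (δ x) = a • (Θ ^ n) (δ x) := by
      rw [Polynomial.aeval_monomial, Module.End.mul_apply]
      simp
    refine ⟨by rw [hmon]; exact H.zsmul_mem h a, ?_⟩
    have : (⟨Polynomial.aeval T (Polynomial.monomial n a) (x : G),
        by rw [hmon]; exact H.zsmul_mem h a⟩ : H) = a • ⟨_, h⟩ := Subtype.ext hmon
    rw [this, map_zsmul, hh, hmon']

/-- eigen-relations are transported. -/
theorem intertwine_eigen (H : AddSubgroup G) (δ : H →+ S) (T : Module.End ℤ G)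
    (Θ : Module.End ℤ S) (hTH : ∀ x ∈ H, T x ∈ H)
    (hδ : ∀ x : H, δ ⟨T x, hTH x x.2⟩ = Θ (δ x)) (a : ℤ) (x : H)
    (hx : T (x : G) = a • (x : G)) : Θ (δ x) = a • δ x := by
  rw [← hδ x, ← map_zsmul]
  congr 1
  exact Subtype.ext hx

/-- polynomial relations are transported. -/
theorem intertwine_aeval_eq_zero (H : AddSubgroup G) (δ : H →+ S) (T : Module.End ℤ G)
    (Θ : Module.End ℤ S) (hTH : ∀ x ∈ H, T x ∈ H)
    (hδ : ∀ x : H, δ ⟨T x, hTH x x.2⟩ = Θ (δ x)) (c : Polynomial ℤ) (x : H)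
    (hx : Polynomial.aeval T c (x : G) = 0) : Polynomial.aeval Θ c (δ x) = 0 := by
  obtain ⟨h, e⟩ := intertwine_aeval H δ T Θ hTH hδ c x
  rw [← e]
  have : (⟨Polynomial.aeval T c (x : G), h⟩ : H) = 0 := Subtype.ext hx
  rw [this, map_zero]

end Fermat.Agent.T1B.Hecke3
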