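/-
T1B / F8 HECKE-N (brick 528, helper3), slice S4 'DELTA': FINAL FORM, SIDE 1.

* `deltaInputs1` : the inputs of `delta` for the `q`-expansion at `∞` are unconditional
  (S3 = `Gauss95.normalisable_coe`, constants = `Hecke87.const_of_ord_eq_zero`);
* `delta1 A p N : J₀(N)[p] →+ κ((q))`;
* `delta1_heckeT`, `delta1_heckeU` : equivariance for the Prelude's `heckeOperatorBar N ℓ` (`ℓ ∤ N`)
  and for `β_* α^*` at a prime `ℓ ∣ N`;
* `occ_delta1` : an element of the occurrence subgroup `Top68.OccSub U N p good a C` (for a family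
  `U` with `U N = β_* α^*` at `2`) is sent by `delta1` to a `q`-series `y` with
  `heckeT2 ℓ y = a_ℓ y` (good `ℓ`) and `c(Uop 2) y = 0` (`c ∈ C`).
-/
import Mathlib
import Fermat.Agent.T1B.Hecke3.DeltaX0
import Fermat.Agent.T1B.Hecke3.Occ
import Fermat.Agent.T1B.Hecke87.InputsX0
import Fermat.Agent.T1B.Gauss95.Main
import Fermat.Agent.T1B.Top68.Global

set_option autoImplicit false
set_option linter.unusedSectionVars false

noncomputable section

namespace Fermat.Agent.T1B.Hecke3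

open HahnSeries ModularCurve AlgebraicCurve IntermediateField
open Fermat.Agent.X0 Fermat.Agent.T1B.Hecke7 Fermat.Agent.T1B.DivNorm27
open Fermat.Agent.ES.HECKE.InputsMain19 Fermat.Agent.T1B.Top68

variable (A : ValuationSubring Kbar) (p : ℕ) [CharP (Kap A) p] (N : ℕ) [NeZero N]

/-- **The inputs of `delta` at the cusp `∞` hold unconditionally.** -/
theorem deltaInputs1 : DeltaInputs A (iotaHom N) p :=
  Fermat.Agent.T1B.Hecke87.deltaInputs_of_hom N A p (iotaHom N)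
    (fun c => Fermat.Agent.T1B.Hecke87.iota_const N c)
    (fun f hf => Fermat.Agent.T1B.Gauss95.normalisable_coe A N f hf)

/-- **`δ₁ : J₀(N)(ℚbar)[p] →+ κ((q))`**, the `q`-dlog at the cusp `∞`. -/
def delta1 : Pic0.torsion Kbar (FF N) p →+ LaurentSeries (Kap A) :=
  delta A (iotaHom N) p (deltaInputs1 A p N)

variable {A p N}

theorem delta1_eq (x : Pic0.torsion Kbar (FF N) p) {D : Divisor.degZero (K := Kbar) (F := FF N)}
    {f : FF N} (h : IsPData (K := Kbar) p (x : Pic0 Kbar (FF N)) D f) :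
    delta1 A p N x = dl A (f : LaurentSeries Kbar) :=
  delta_eq (deltaInputs1 A p N) x h

/-- **`T_ℓ`-equivariance of `δ₁`**, `ℓ ∤ N`, `ℓ ≠ p`. -/
theorem delta1_heckeT (ℓ : Nat.Primes) (hℓN : ¬ (ℓ : ℕ) ∣ N) (hℓp : ((ℓ : ℕ) : Kap A) ≠ 0)
    (x : Pic0.torsion Kbar (FF N) p)
    (h : heckeOperatorBar N ℓ (x : Pic0 Kbar (FF N)) ∈ Pic0.torsion Kbar (FF N) p) :
    delta1 A p N ⟨heckeOperatorBar N ℓ (x : Pic0 Kbar (FF N)), h⟩ =
      (haveI : NeZero (ℓ : ℕ) := ⟨ℓ.2.ne_zero⟩; heckeT2 (ℓ : ℕ) (delta1 A p N x)) :=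
  delta_heckeOperatorBar (deltaInputs1 A p N) ℓ hℓN hℓp x h

/-- **`U_ℓ`-equivariance of `δ₁`** for `β_* α^*`, `ℓ ∣ N`, `ℓ ≠ p`. -/
theorem delta1_heckeU {ℓ : ℕ} [NeZero ℓ] (hℓ : ℓ.Prime) (hℓN : ℓ ∣ N) (hℓp : (ℓ : Kap A) ≠ 0)
    [HasPrincipalDivisors Qb (laurentBaseChange Qb (modularFunctionFieldFull (N * ℓ)))]
    (hα : HeckeAlphaBarIntegral Qb N ℓ) (hβ : HeckeBetaBarIntegral Qb N ℓ)
    (hFI : FundamentalIdentityAlong Qb (heckeAlphaBar Qb N ℓ) hα)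
    (hfin : FiniteAlong Qb (heckeBetaBar Qb N ℓ))
    (hN : NormFormulaAlong Qb (heckeBetaBar Qb N ℓ) hfin)
    (x : Pic0.torsion Kbar (FF N) p)
    (h : heckePic0BarTranspose hα hβ hFI hfin hN (x : Pic0 Kbar (FF N)) ∈
      Pic0.torsion Kbar (FF N) p) :
    delta1 A p N ⟨heckePic0BarTranspose hα hβ hFI hfin hN (x : Pic0 Kbar (FF N)), h⟩ =
      Uop ℓ (delta1 A p N x) :=
  delta_heckePic0BarTranspose (deltaInputs1 A p N) hℓ hℓN hℓp hα hβ hFI hfin hN x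

/-- `Uop ℓ` as a `ℤ`-linear endomorphism of `κ((q))`. -/
def UopEnd {k : Type*} [Field k] (ℓ : ℕ) [NeZero ℓ] : Module.End ℤ (LaurentSeries k) :=
  (Uop ℓ).toIntLinearMap

/-- **Transport of the occurrence subgroup.**  Let `U` be a family of `U_2`-operators with
`U N = β_* α^*` (prime `2 ∣ N`).  For `x ∈ OccSub U N p good a C`, where the good primes do not
divide `N` and are invertible in `κ`, the `q`-series `y = δ₁ x` satisfies
`heckeT2 ℓ y = a_ℓ • y` for all good `ℓ` and `c(Uop 2) y = 0` for all `c ∈ C`. -/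
theorem occ_delta1 (h2N : 2 ∣ N) (h2 : ((2 : ℕ) : Kap A) ≠ 0) (U : UFamily)
    [HasPrincipalDivisors Qb (laurentBaseChange Qb (modularFunctionFieldFull (N * 2)))]
    (hα : HeckeAlphaBarIntegral Qb N 2) (hβ : HeckeBetaBarIntegral Qb N 2)
    (hFI : FundamentalIdentityAlong Qb (heckeAlphaBar Qb N 2) hα)
    (hfin : FiniteAlong Qb (heckeBetaBar Qb N 2))
    (hN : NormFormulaAlong Qb (heckeBetaBar Qb N 2) hfin)
    (hU : ∀ x : JZero N, U N x = heckePic0BarTranspose hα hβ hFI hfin hN x)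
    (good : ℕ → Prop) (a : ℕ → ℤ) (C : Set (Polynomial ℤ))
    (hgood : ∀ ℓ : ℕ, good ℓ → ¬ ℓ ∣ N ∧ (ℓ : Kap A) ≠ 0)
    (x : JZero N) (hx : x ∈ OccSub U N p good a C) :
    ∃ hx' : x ∈ Pic0.torsion Kbar (FF N) p,
      (∀ ℓ : Nat.Primes, good ℓ →
        (haveI : NeZero (ℓ : ℕ) := ⟨ℓ.2.ne_zero⟩; heckeT2 (ℓ : ℕ) (delta1 A p N ⟨x, hx'⟩)) =
          a ℓ • delta1 A p N ⟨x, hx'⟩) ∧
      ∀ c ∈ C, Polynomial.aeval (UopEnd (k := Kap A) 2) c (delta1 A p N ⟨x, hx'⟩) = 0 := by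
  obtain ⟨hxp, hxT, hxC⟩ := hx
  have hx' : x ∈ Pic0.torsion Kbar (FF N) p := Pic0.mem_torsion.2 hxp
  refine ⟨hx', fun ℓ hℓ => ?_, fun c hc => ?_⟩
  · obtain ⟨hℓN, hℓp⟩ := hgood ℓ hℓ
    have hT : heckeOperatorBar N ℓ x ∈ Pic0.torsion Kbar (FF N) p := by
      rw [hxT ℓ hℓ]
      exact (Pic0.torsion Kbar (FF N) p).zsmul_mem hx' _
    rw [← delta1_heckeT ℓ hℓN hℓp ⟨x, hx'⟩ hT, ← map_zsmul]
    congr 1
    exact Subtype.ext (hxT ℓ hℓ)
  · have hTH : ∀ z ∈ Pic0.torsion Kbar (FF N) p, U N z ∈ Pic0.torsion Kbar (FF N) p := by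
      intro z hz
      rw [hU]
      exact map_mem_torsion _ hz
    refine intertwine_aeval_eq_zero (Pic0.torsion Kbar (FF N) p) (delta1 A p N) (U N)
      (UopEnd 2) hTH ?_ c ⟨x, hx'⟩ (hxC c hc)
    intro z
    have key := delta1_heckeU (A := A) (p := p) Nat.prime_two h2N h2 hα hβ hFI hfin hN z
      (map_mem_torsion _ z.2)
    show delta1 A p N ⟨U N (z : JZero N), _⟩ = Uop 2 (delta1 A p N z)
    rw [← key]
    congr 1
    exact Subtype.ext (hU _)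

end Fermat.Agent.T1B.Hecke3
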