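/-
T1B / F8 HECKE-N (brick 528, helper3): the GAUSS VALUATION RING of an expansion and its residue map.

For a field `F` with an expansion `e : F →+* K((q))` and a valuation subring `A` of `K`
(NOT necessarily discrete), `gaussSub A e ⊂ F` is the ring of functions `f = a / s` with
`a, s ∈ A((q))`, `s̄ ≠ 0`, and `gaussRes A e : gaussSub A e →+* κ((q))`, `f ↦ ā / s̄` its residue
map.  If every nonzero function is normalisable (slice S3), `gaussSub` is a valuation subring of
`F` (`gaussVal`), the kernel of `gaussRes` is its maximal ideal, and for a unit `u`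
    `dl A (e u) = dlog (gaussRes u)`.
This is the dictionary between the `q`-dlog `dl` and 'the logarithmic derivative of the reduction
of a unit of the `i`-th Gauss valuation ring `O_i` of the function field' used by S5 HOL / S6 KER:
`O_i = gaussVal A e_i`, `k_i = (gaussRes A e_i).fieldRange`.
-/
import Mathlib
import Fermat.Agent.T1B.Hecke3.DlAbs

set_option autoImplicit false

noncomputable section

namespace Fermat.Agent.T1B.Hecke3

open HahnSeries ModularCurve

variable {K : Type*} [Field K] {F : Type*} [Field F]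
variable (A : ValuationSubring K) (e : F →+* LaurentSeries K)

/-- `(a, s)` is an integral representation of `f`: `e f = a / s`, `s̄ ≠ 0`. -/
def IsIntRep (f : F) (a s : LaurentSeries ↥A) : Prop :=
  redA A s ≠ 0 ∧ e f * embA A s = embA A a

variable {A e}

theorem IsIntRep.embA_s_ne_zero {f : F} {a s : LaurentSeries ↥A} (h : IsIntRep A e f a s) :
    embA A s ≠ 0 := by
  intro h0
  apply h.1
  have : s = 0 := embA_injective A (by rw [h0, map_zero])
  rw [this, map_zero]

theorem IsIntRep.add {f g : F} {a s b t : LaurentSeries ↥A} (h : IsIntRep A e f a s)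
    (h' : IsIntRep A e g b t) : IsIntRep A e (f + g) (a * t + b * s) (s * t) := by
  refine ⟨by rw [map_mul]; exact mul_ne_zero h.1 h'.1, ?_⟩
  rw [map_add, map_add, map_mul, map_mul, map_mul, ← h.2, ← h'.2]
  ring

theorem IsIntRep.mul {f g : F} {a s b t : LaurentSeries ↥A} (h : IsIntRep A e f a s)
    (h' : IsIntRep A e g b t) : IsIntRep A e (f * g) (a * b) (s * t) := by
  refine ⟨by rw [map_mul]; exact mul_ne_zero h.1 h'.1, ?_⟩
  rw [map_mul, map_mul, map_mul, ← h.2, ← h'.2]
  ring

theorem IsIntRep.neg {f : F} {a s : LaurentSeries ↥A} (h : IsIntRep A e f a s) :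
    IsIntRep A e (-f) (-a) s := by
  refine ⟨h.1, ?_⟩
  rw [map_neg, map_neg, neg_mul, h.2]

theorem isIntRep_zero : IsIntRep A e (0 : F) 0 1 := by
  refine ⟨by rw [map_one]; exact one_ne_zero, ?_⟩
  rw [map_zero, map_zero, zero_mul]

theorem isIntRep_one : IsIntRep A e (1 : F) 1 1 := by
  refine ⟨by rw [map_one]; exact one_ne_zero, ?_⟩
  rw [map_one, map_one, one_mul]

/-- two representations have the same reduced quotient. -/
theorem IsIntRep.unique {f : F} {a s a' s' : LaurentSeries ↥A} (h : IsIntRep A e f a s)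
    (h' : IsIntRep A e f a' s') : redA A a / redA A s = redA A a' / redA A s' := by
  have h1 : a * s' = a' * s := by
    apply embA_injective A
    rw [map_mul, map_mul, ← h.2, ← h'.2]
    ring
  rw [div_eq_div_iff h.1 h'.1, ← map_mul, ← map_mul, h1]

variable (A e)

/-- **The Gauss ring** of the expansion `e`: functions `a / s` with `s̄ ≠ 0`. -/
def gaussSub : Subring F where
  carrier := {f | ∃ a s, IsIntRep A e f a s}
  mul_mem' := by
    rintro f g ⟨a, s, h⟩ ⟨b, t, h'⟩
    exact ⟨_, _, h.mul h'⟩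
  one_mem' := ⟨1, 1, isIntRep_one⟩
  add_mem' := by
    rintro f g ⟨a, s, h⟩ ⟨b, t, h'⟩
    exact ⟨_, _, h.add h'⟩
  zero_mem' := ⟨0, 1, isIntRep_zero⟩
  neg_mem' := by
    rintro f ⟨a, s, h⟩
    exact ⟨_, _, h.neg⟩

variable {A e}

theorem mem_gaussSub_iff {f : F} : f ∈ gaussSub A e ↔ ∃ a s, IsIntRep A e f a s := Iff.rfl

variable (A e)

/-- the underlying function of the residue map. -/
def gaussResFun (f : gaussSub A e) : LaurentSeries (Kap A) :=
  redA A f.2.choose / redA A f.2.choose_spec.choose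

variable {A e}

theorem gaussResFun_eq {f : gaussSub A e} {a s : LaurentSeries ↥A}
    (h : IsIntRep A e (f : F) a s) : gaussResFun A e f = redA A a / redA A s :=
  IsIntRep.unique f.2.choose_spec.choose_spec h

variable (A e)

/-- **The residue map** `O → κ((q))` of the Gauss ring. -/
def gaussRes : gaussSub A e →+* LaurentSeries (Kap A) where
  toFun := gaussResFun A e
  map_one' := by
    rw [gaussResFun_eq (f := (1 : gaussSub A e)) isIntRep_one, map_one, div_one]
  map_mul' f g := by
    obtain ⟨a, s, h⟩ := f.2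
    obtain ⟨b, t, h'⟩ := g.2
    rw [gaussResFun_eq (f := f * g) (h.mul h'), gaussResFun_eq h, gaussResFun_eq h', map_mul,
      map_mul, mul_div_mul_comm]
  map_zero' := by
    rw [gaussResFun_eq (f := (0 : gaussSub A e)) isIntRep_zero, map_zero, zero_div]
  map_add' f g := by
    obtain ⟨a, s, h⟩ := f.2
    obtain ⟨b, t, h'⟩ := g.2
    rw [gaussResFun_eq (f := f + g) (h.add h'), gaussResFun_eq h, gaussResFun_eq h', map_add,
      map_mul, map_mul, map_mul, div_add_div _ _ h.1 h'.1, mul_comm (redA A s) (redA A b)]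

variable {A e}

theorem gaussRes_eq {f : gaussSub A e} {a s : LaurentSeries ↥A}
    (h : IsIntRep A e (f : F) a s) : gaussRes A e f = redA A a / redA A s :=
  gaussResFun_eq h

/-- A normalised representation with constant `1` is an integral representation. -/
theorem IsNormRep.isIntRep {f : F} {a s : LaurentSeries ↥A} (h : IsNormRep A (e f) 1 a s) :
    IsIntRep A e f a s := by
  refine ⟨h.2.2.1, ?_⟩
  have := h.2.2.2
  rwa [map_one, one_mul] at this

/-- **`dl` of a Gauss unit is the `dlog` of its residue.** -/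
theorem dl_eq_dlog_gaussRes {u : gaussSub A e} (hu : gaussRes A e u ≠ 0) :
    dl A (e (u : F)) = dlog (gaussRes A e u) := by
  obtain ⟨a, s, h⟩ := u.2
  have hr := gaussRes_eq h
  have ha : redA A a ≠ 0 := by
    intro h0
    apply hu
    rw [hr, h0, zero_div]
  have hN : IsNormRep A (e (u : F)) 1 a s := by
    refine ⟨one_ne_zero, ha, h.1, ?_⟩
    rw [map_one, one_mul, h.2]
  rw [dl_eq_of_rep hN, hr, div_eq_mul_inv, dlog_mul ha (inv_ne_zero h.1), dlog_inv, sub_eq_add_neg]

/-- an element of `F` is in the Gauss ring with nonzero residue iff it has a normalised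
representation with constant `1`. -/
theorem exists_isNormRep_one_iff {f : F} :
    (∃ a s, IsNormRep A (e f) 1 a s) ↔ ∃ h : f ∈ gaussSub A e, gaussRes A e ⟨f, h⟩ ≠ 0 := by
  constructor
  · rintro ⟨a, s, h⟩
    refine ⟨⟨a, s, h.isIntRep⟩, ?_⟩
    rw [gaussRes_eq (f := ⟨f, ⟨a, s, h.isIntRep⟩⟩) h.isIntRep]
    exact div_ne_zero h.2.1 h.2.2.1
  · rintro ⟨⟨a, s, h⟩, hne⟩
    rw [gaussRes_eq (f := ⟨f, ⟨a, s, h⟩⟩) h] at hne
    refine ⟨a, s, one_ne_zero, fun h0 => hne (by rw [h0, zero_div]), h.1, ?_⟩
    rw [map_one, one_mul, h.2]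

/-! ### The valuation subring -/

variable (A e)

/-- **The Gauss valuation subring** `O ⊂ F` of the expansion `e`, when every nonzero function is
normalisable. -/
def gaussVal (H : ∀ f : F, f ≠ 0 → Normalisable A (e f)) : ValuationSubring F :=
  { gaussSub A e with
    mem_or_inv_mem' := by
      intro f
      rcases eq_or_ne f 0 with rfl | hf
      · exact Or.inl (gaussSub A e).zero_mem
      obtain ⟨c, a, s, hc, ha, hs, he⟩ := H f hf
      rcases A.mem_or_inv_mem c with hcA | hcA
      · -- `f⁻¹ = c s / a`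
        right
        show f⁻¹ ∈ gaussSub A e
        refine ⟨HahnSeries.C (⟨c, hcA⟩ : ↥A) * s, a, ha, ?_⟩
        have hef : e f ≠ 0 := (map_ne_zero_iff e e.injective).2 hf
        rw [map_mul, coeffMap_C', ← he, map_inv₀]
        show (e f)⁻¹ * (HahnSeries.C c * e f * embA A s) = HahnSeries.C c * embA A s
        field_simp
      · -- `f = c⁻¹ a / s`
        left
        show f ∈ gaussSub A e
        refine ⟨HahnSeries.C (⟨c⁻¹, hcA⟩ : ↥A) * a, s, hs, ?_⟩
        rw [map_mul, coeffMap_C', ← he]
        show e f * embA A s = HahnSeries.C c⁻¹ * (HahnSeries.C c * e f * embA A s)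
        have hcc : (HahnSeries.C c⁻¹ : LaurentSeries K) * HahnSeries.C c = 1 := by
          rw [← map_mul, inv_mul_cancel₀ hc, map_one]
        calc e f * embA A s = (HahnSeries.C c⁻¹ * HahnSeries.C c) * (e f * embA A s) := by
              rw [hcc, one_mul]
          _ = _ := by ring }

theorem mem_gaussVal_iff (H : ∀ f : F, f ≠ 0 → Normalisable A (e f)) (f : F) :
    f ∈ gaussVal A e H ↔ f ∈ gaussSub A e := Iff.rfl

variable {A e}

/-- the inverse of an element with nonzero residue is again in the Gauss ring. -/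
theorem inv_mem_gaussSub {u : gaussSub A e} (hu : gaussRes A e u ≠ 0) :
    ((u : F))⁻¹ ∈ gaussSub A e := by
  obtain ⟨a, s, h⟩ := u.2
  have hr := gaussRes_eq h
  have ha : redA A a ≠ 0 := fun h0 => hu (by rw [hr, h0, zero_div])
  have hs0 := h.embA_s_ne_zero
  have hea : embA A a ≠ 0 := fun h0 => ha (by
    have : a = 0 := embA_injective A (by rw [h0, map_zero])
    rw [this, map_zero])
  have heu : e (u : F) ≠ 0 := by
    intro h0
    apply hea
    rw [← h.2, h0, zero_mul]
  refine ⟨s, a, ha, ?_⟩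
  rw [map_inv₀, ← h.2]
  field_simp

/-- **units of the Gauss ring = elements with nonzero residue.** -/
theorem isUnit_iff_gaussRes_ne_zero (u : gaussSub A e) : IsUnit u ↔ gaussRes A e u ≠ 0 := by
  constructor
  · intro h
    exact (h.map (gaussRes A e)).ne_zero
  · intro hu
    have hinv := inv_mem_gaussSub hu
    have hu0 : (u : F) ≠ 0 := by
      intro h0
      apply hu
      have : u = 0 := Subtype.ext h0
      rw [this, map_zero]
    refine ⟨⟨u, ⟨_, hinv⟩, ?_, ?_⟩, rfl⟩
    · exact Subtype.ext (mul_inv_cancel₀ hu0)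
    · exact Subtype.ext (inv_mul_cancel₀ hu0)

/-- **normalisation by a constant**: a function with normalisable expansion is a constant times a
Gauss unit, and `dl` is the `dlog` of the residue of that unit. -/
theorem exists_const_mul_unit (ι : K →+* F) (hι : ∀ c : K, e (ι c) = HahnSeries.C c) {f : F}
    (hN : Normalisable A (e f)) :
    ∃ c : K, c ≠ 0 ∧ ∃ u : gaussSub A e, (u : F) = ι c * f ∧ gaussRes A e u ≠ 0 ∧
      dl A (e f) = dlog (gaussRes A e u) := by
  obtain ⟨c, a, s, hc, ha, hs, he⟩ := hN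
  have hrep : IsIntRep A e (ι c * f) a s := by
    refine ⟨hs, ?_⟩
    rw [map_mul, hι, he]
  refine ⟨c, hc, ⟨ι c * f, ⟨a, s, hrep⟩⟩, rfl, ?_, ?_⟩
  · rw [gaussRes_eq (f := ⟨ι c * f, ⟨a, s, hrep⟩⟩) hrep]
    exact div_ne_zero ha hs
  · rw [gaussRes_eq (f := ⟨ι c * f, ⟨a, s, hrep⟩⟩) hrep, dl_eq_of_rep ⟨hc, ha, hs, he⟩,
      div_eq_mul_inv, dlog_mul ha (inv_ne_zero hs), dlog_inv, sub_eq_add_neg]

/-- `dl` only depends on the class modulo constants and `p`-th powers: if `f = c · u · g^p` with
`u` a Gauss unit, then `dl A (e f) = dlog (gaussRes u)` (the normalisation used by S5 HOL). -/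
theorem dl_eq_dlog_gaussRes_of_eq (p : ℕ) [CharP (Kap A) p] (ι : K →+* F)
    (hι : ∀ c : K, e (ι c) = HahnSeries.C c) {f g : F} {c : K} (hc : c ≠ 0)
    {u : gaussSub A e} (hu : gaussRes A e u ≠ 0) (hg : Normalisable A (e g))
    (hf : f = ι c * (u : F) * g ^ p) : dl A (e f) = dlog (gaussRes A e u) := by
  have hNu : Normalisable A (e (u : F)) := by
    obtain ⟨a, s, h⟩ := (exists_isNormRep_one_iff (A := A) (e := e)).2 ⟨u.2, hu⟩
    exact ⟨1, a, s, h⟩
  rw [hf, map_mul, map_mul, hι, map_pow, mul_assoc,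
    dl_C_mul (hNu.mul (hg.pow p)) hc, dl_mul hNu (hg.pow p), dl_pow_char p hg, add_zero,
    dl_eq_dlog_gaussRes hu]

end Fermat.Agent.T1B.Hecke3
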