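/-
T1B / F8 HECKE-N (brick 528, helper3), slice S4 'DELTA': FINAL FORM, SIDE 2.

`N = M' * p`, `p ∤ M'`.  The second expansion is the Atkin–Lehner expansion at `p`,
`W_p : FF (M'*p) →+* ℚbar((q))` (`ALP90.AL1.Wp`: `W_p (β_p h) = h`, `W_p (α_p f) = f(q^p)`), i.e. the
expansion at the cusp `w_p(∞)`, which lies on the second component of the special fibre.
* `deltaInputs2` : the inputs of `delta` for `W_p` hold unconditionally;
* `delta2 A M' p hp hpM : J₀(M'p)[p] →+ κ((q))`;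
* `delta2_heckeT_of_prod`, `delta2_heckeU_of_prod` : equivariance, given the transported product
  formulas (slice ALP, `AL2`/`AL3`);
* `occ_delta2_of_prod` : transport of `Top68.OccSub`.
-/
import Mathlib
import Fermat.Agent.T1B.Hecke3.DeltaFinal
import Fermat.Agent.T1B.ALP95.Bridge

set_option autoImplicit false
set_option linter.unusedSectionVars false

noncomputable section

namespace Fermat.Agent.T1B.Hecke3

open HahnSeries ModularCurve AlgebraicCurve IntermediateField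
open Fermat.Agent.X0 Fermat.Agent.T1B.Hecke7 Fermat.Agent.T1B.DivNorm27
open Fermat.Agent.ES.HECKE.InputsMain19 Fermat.Agent.T1B.Top68
open Fermat.Agent.ES.HECKE.PointFormula28 Fermat.Agent.ES.KRON.KronCong24
open Fermat.Agent.T1B.ALP90.AL1

variable (A : ValuationSubring Kbar) (M' p : ℕ) [NeZero M'] [NeZero p] (hp : p.Prime)
  (hpM : ¬ p ∣ M') [CharP (Kap A) p]

/-- **The inputs of `delta` for the Atkin–Lehner expansion `W_p` hold unconditionally.** -/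
theorem deltaInputs2 : DeltaInputs A (Wp M' p hp hpM) p :=
  Fermat.Agent.T1B.Hecke87.deltaInputs_of_hom (M' * p) A p (Wp M' p hp hpM)
    (fun c => Wp_const M' p hp hpM c)
    (fun f hf => Fermat.Agent.T1B.ALP95.Bridge.normalisable_Wp M' p hp hpM A f hf)

/-- **`δ₂ : J₀(M'p)(ℚbar)[p] →+ κ((q))`**, the `q`-dlog at the cusp `w_p(∞)`. -/
def delta2 : Pic0.torsion Kbar (FF (M' * p)) p →+ LaurentSeries (Kap A) :=
  delta A (Wp M' p hp hpM) p (deltaInputs2 A M' p hp hpM)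

variable {A M' p hp hpM}

theorem delta2_eq (x : Pic0.torsion Kbar (FF (M' * p)) p)
    {D : Divisor.degZero (K := Kbar) (F := FF (M' * p))} {f : FF (M' * p)}
    (h : IsPData (K := Kbar) p (x : Pic0 Kbar (FF (M' * p))) D f) :
    delta2 A M' p hp hpM x = dl A (Wp M' p hp hpM f) :=
  delta_eq (deltaInputs2 A M' p hp hpM) x h

/-- **`T_ℓ`-equivariance of `δ₂`** (`ℓ ∤ M'p`, `ℓ` invertible in `κ`), given the product formula
for `W_p` (slice ALP). -/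
theorem delta2_heckeT_of_prod (ℓ : Nat.Primes) (hℓp : ((ℓ : ℕ) : Kap A) ≠ 0)
    (hprod : ∀ (ζ : Kbarˣ), IsPrimitiveRoot ζ (ℓ : ℕ) → ∀ f : FF (M' * p),
      (haveI : NeZero (ℓ : ℕ) := ⟨ℓ.2.ne_zero⟩;
      qExpand Kbar (ℓ : ℕ) (Wp M' p hp hpM (normAlong (heckeAlphaBar Qb (M' * p) (ℓ : ℕ))
          (heckeBetaBar Qb (M' * p) (ℓ : ℕ) f))) =
        (∏ b ∈ Finset.range (ℓ : ℕ), twistU (ζ ^ b) (Wp M' p hp hpM f)) *
          qExpand Kbar ((ℓ : ℕ) ^ 2) (Wp M' p hp hpM f)))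
    (x : Pic0.torsion Kbar (FF (M' * p)) p)
    (h : heckeOperatorBar (M' * p) ℓ (x : Pic0 Kbar (FF (M' * p))) ∈
      Pic0.torsion Kbar (FF (M' * p)) p) :
    delta2 A M' p hp hpM ⟨heckeOperatorBar (M' * p) ℓ (x : Pic0 Kbar (FF (M' * p))), h⟩ =
      (haveI : NeZero (ℓ : ℕ) := ⟨ℓ.2.ne_zero⟩; heckeT2 (ℓ : ℕ) (delta2 A M' p hp hpM x)) := by
  have : NeZero (ℓ : ℕ) := ⟨ℓ.2.ne_zero⟩
  have := hasPrincipalDivisors_level (M' * p) (ℓ : ℕ)
  obtain ⟨ζ, hζ⟩ := exists_primitiveRoot_unit' (ℓ : ℕ)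
  have hop := heckeOperatorAlong_eq (heckeAlphaBarIntegral_all (M' * p) (ℓ : ℕ) ℓ.2)
    (heckeBetaBarIntegral_all (M' * p) (ℓ : ℕ) ℓ.2)
    (fundamentalIdentityAlong_beta_all (M' * p) (ℓ : ℕ) ℓ.2)
    (finiteAlong_alpha_all (M' * p) (ℓ : ℕ) ℓ.2) (normFormulaAlong_alpha_all (M' * p) (ℓ : ℕ) ℓ.2)
  have key := delta_heckePic0Bar_of_prod (Wp M' p hp hpM) (deltaInputs2 A M' p hp hpM) ℓ.2 hℓp
    (heckeAlphaBarIntegral_all (M' * p) (ℓ : ℕ) ℓ.2)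
    (heckeBetaBarIntegral_all (M' * p) (ℓ : ℕ) ℓ.2)
    (fundamentalIdentityAlong_beta_all (M' * p) (ℓ : ℕ) ℓ.2)
    (finiteAlong_alpha_all (M' * p) (ℓ : ℕ) ℓ.2) (normFormulaAlong_alpha_all (M' * p) (ℓ : ℕ) ℓ.2)
    ζ hζ (hprod ζ hζ) x
  unfold delta2
  rw [← key]
  congr 1
  apply Subtype.ext
  show heckeOperatorBar (M' * p) ℓ (x : Pic0 Kbar (FF (M' * p))) = _
  rw [heckeOperatorBar_apply, hop]

/-- **`U_ℓ`-equivariance of `δ₂`** for `β_* α^*` (`ℓ ∣ M'p`, `ℓ` invertible in `κ`), given the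
product formula for `W_p` (slice ALP). -/
theorem delta2_heckeU_of_prod {ℓ : ℕ} [NeZero ℓ] (hℓ : ℓ.Prime) (hℓp : (ℓ : Kap A) ≠ 0)
    [HasPrincipalDivisors Qb (laurentBaseChange Qb (modularFunctionFieldFull (M' * p * ℓ)))]
    (hα : HeckeAlphaBarIntegral Qb (M' * p) ℓ) (hβ : HeckeBetaBarIntegral Qb (M' * p) ℓ)
    (hFI : FundamentalIdentityAlong Qb (heckeAlphaBar Qb (M' * p) ℓ) hα)
    (hfin : FiniteAlong Qb (heckeBetaBar Qb (M' * p) ℓ))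
    (hN : NormFormulaAlong Qb (heckeBetaBar Qb (M' * p) ℓ) hfin)
    (ζ : Kbarˣ) (hζ : IsPrimitiveRoot ζ ℓ)
    (hprod : ∀ f : FF (M' * p),
      qExpand Kbar ℓ (Wp M' p hp hpM (normAlong (heckeBetaBar Qb (M' * p) ℓ)
          (heckeAlphaBar Qb (M' * p) ℓ f))) =
        ∏ b ∈ Finset.range ℓ, twistU (ζ ^ b) (Wp M' p hp hpM f))
    (x : Pic0.torsion Kbar (FF (M' * p)) p)
    (h : heckePic0BarTranspose hα hβ hFI hfin hN (x : Pic0 Kbar (FF (M' * p))) ∈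
      Pic0.torsion Kbar (FF (M' * p)) p) :
    delta2 A M' p hp hpM
        ⟨heckePic0BarTranspose hα hβ hFI hfin hN (x : Pic0 Kbar (FF (M' * p))), h⟩ =
      Uop ℓ (delta2 A M' p hp hpM x) :=
  delta_heckePic0BarTranspose_of_prod (Wp M' p hp hpM) (deltaInputs2 A M' p hp hpM) hℓ hℓp
    hα hβ hFI hfin hN ζ hζ hprod x

/-- **Transport of the occurrence subgroup, generic form**: any additive `δ` on `J₀(N)[p]` which
intertwines the good `T_ℓ` with `heckeT2 ℓ` and `U N` with `Uop 2` sends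
`Top68.OccSub U N p good a C` into the `q`-series with the same eigen-conditions. -/
theorem occ_of_equivariant {k : Type*} [Field k] {N : ℕ} [NeZero N] {p : ℕ}
    (δ : Pic0.torsion Kbar (FF N) p →+ LaurentSeries k) (U : UFamily)
    (good : ℕ → Prop) (a : ℕ → ℤ) (C : Set (Polynomial ℤ))
    (hUtors : ∀ z ∈ Pic0.torsion Kbar (FF N) p, U N z ∈ Pic0.torsion Kbar (FF N) p)
    (hT : ∀ ℓ : Nat.Primes, good ℓ → ∀ (x : Pic0.torsion Kbar (FF N) p)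
      (h : heckeOperatorBar N ℓ (x : Pic0 Kbar (FF N)) ∈ Pic0.torsion Kbar (FF N) p),
      δ ⟨heckeOperatorBar N ℓ (x : Pic0 Kbar (FF N)), h⟩ =
        (haveI : NeZero (ℓ : ℕ) := ⟨ℓ.2.ne_zero⟩; heckeT2 (ℓ : ℕ) (δ x)))
    (hUe : ∀ z : Pic0.torsion Kbar (FF N) p,
      δ ⟨U N (z : JZero N), hUtors z z.2⟩ = Uop 2 (δ z))
    (x : JZero N) (hx : x ∈ OccSub U N p good a C) :
    ∃ hx' : x ∈ Pic0.torsion Kbar (FF N) p,
      (∀ ℓ : Nat.Primes, good ℓ →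
        (haveI : NeZero (ℓ : ℕ) := ⟨ℓ.2.ne_zero⟩; heckeT2 (ℓ : ℕ) (δ ⟨x, hx'⟩)) =
          a ℓ • δ ⟨x, hx'⟩) ∧
      ∀ c ∈ C, Polynomial.aeval (UopEnd (k := k) 2) c (δ ⟨x, hx'⟩) = 0 := by
  obtain ⟨hxp, hxT, hxC⟩ := hx
  have hx' : x ∈ Pic0.torsion Kbar (FF N) p := Pic0.mem_torsion.2 hxp
  refine ⟨hx', fun ℓ hℓ => ?_, fun c hc => ?_⟩
  · have hTm : heckeOperatorBar N ℓ x ∈ Pic0.torsion Kbar (FF N) p := by
      rw [hxT ℓ hℓ]
      exact (Pic0.torsion Kbar (FF N) p).zsmul_mem hx' _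
    rw [← hT ℓ hℓ ⟨x, hx'⟩ hTm, ← map_zsmul]
    congr 1
    exact Subtype.ext (hxT ℓ hℓ)
  · exact intertwine_aeval_eq_zero (Pic0.torsion Kbar (FF N) p) δ (U N) (UopEnd 2) hUtors
      (fun z => hUe z) c ⟨x, hx'⟩ (hxC c hc)

end Fermat.Agent.T1B.Hecke3
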