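/-
T1B / F8 HECKE-N (brick 528, helper3), slice S4 'DELTA': FINAL FORM, SIDE 2, unconditional.

The product formulas for the Atkin–Lehner expansion `W_p` (hypotheses `hprod` of
`Hecke3/DeltaFinal2`) are instances of helper27's ALP27 (`Commute` = AL2, `Transport` = AL3), with
`σ = alBar M' p` and `σ' = alBarUp` := the Atkin–Lehner automorphism of `FF (M' * ℓ * p)` read on
`FF (M' * p * ℓ)` through `levelCast`.

* `alBarUp`, `coe_alBarUp`, `alBarUp_alpha`, `alBarUp_beta`;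
* `Wp_prod_T` (`ℓ ∤ M'p`), `Wp_prod_U` (`ℓ ∣ M'p`), `ℓ ≠ p`;
* `delta2_heckeT`, `delta2_heckeU` : unconditional equivariance of `δ₂`;
* `occ_delta2` : transport of `Top68.OccSub`.
-/
import Mathlib
import Fermat.Agent.T1B.Hecke3.DeltaFinal2
import Fermat.Agent.T1B.ALP27.Commute
import Fermat.Agent.T1B.ALP27.Transport

set_option autoImplicit false
set_option linter.unusedSectionVars false

noncomputable section

namespace Fermat.Agent.T1B.Hecke3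

open HahnSeries ModularCurve AlgebraicCurve IntermediateField
open Fermat.Agent.X0 Fermat.Agent.T1B.Hecke7 Fermat.Agent.T1B.DivNorm27
open Fermat.Agent.ES.HECKE.InputsMain19 Fermat.Agent.T1B.Top68
open Fermat.Agent.ES.HECKE.PointFormula28 Fermat.Agent.ES.KRON.KronCong24
open Fermat.Agent.T1B.ALP90.AL1 Fermat.Agent.T1B.ALP27

section Up

variable (M' p ℓ : ℕ) [NeZero M'] [NeZero p] [NeZero ℓ] (hp : p.Prime) (hpM : ¬ p ∣ M')
  (hpMℓ : ¬ p ∣ M' * ℓ)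

/-- The Atkin–Lehner automorphism at `p` of `FF (M' * ℓ * p)`, read on `FF (M' * p * ℓ)`. -/
def alBarUp : FF (M' * p * ℓ) ≃+* FF (M' * p * ℓ) :=
  ((levelCast (level_comm M' p ℓ)).toRingEquiv.trans
    (alBar (M' * ℓ) p hp hpMℓ).toRingEquiv).trans
    (levelCast (level_comm M' p ℓ)).symm.toRingEquiv

theorem coe_alBarUp (x : FF (M' * p * ℓ)) :
    ((alBarUp M' p ℓ hp hpMℓ x : FF (M' * p * ℓ)) : LaurentSeries Kbar) =
      Wp (M' * ℓ) p hp hpMℓ (levelCast (level_comm M' p ℓ) x) := by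
  show (((levelCast (level_comm M' p ℓ)).symm
    (alBar (M' * ℓ) p hp hpMℓ (levelCast (level_comm M' p ℓ) x)) : FF (M' * p * ℓ)) :
      LaurentSeries Kbar) = _
  rw [coe_levelCast_symm, coe_alBar]

theorem alBarUp_alpha (x : FF (M' * p)) :
    alBarUp M' p ℓ hp hpMℓ (heckeAlphaBar Kbar (M' * p) ℓ x) =
      heckeAlphaBar Kbar (M' * p) ℓ ((alBar M' p hp hpM).toRingEquiv x) := by
  apply Subtype.ext
  rw [coe_alBarUp, coe_heckeAlphaBar]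
  rw [commute_alpha hp (Wp_beta M' p hp hpM) (Wp_alpha M' p hp hpM)
    (Wp_beta (M' * ℓ) p hp hpMℓ) (Wp_alpha (M' * ℓ) p hp hpMℓ) x]
  rfl

theorem alBarUp_beta (x : FF (M' * p)) :
    alBarUp M' p ℓ hp hpMℓ (heckeBetaBar Kbar (M' * p) ℓ x) =
      heckeBetaBar Kbar (M' * p) ℓ ((alBar M' p hp hpM).toRingEquiv x) := by
  apply Subtype.ext
  rw [coe_alBarUp, coe_heckeBetaBar]
  rw [commute_beta hp (Wp_beta M' p hp hpM) (Wp_alpha M' p hp hpM)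
    (Wp_beta (M' * ℓ) p hp hpMℓ) (Wp_alpha (M' * ℓ) p hp hpMℓ) x]
  rfl

omit [NeZero M'] [NeZero p] [NeZero ℓ] in
theorem not_dvd_mul_of_ne (hp : p.Prime) (hpM : ¬ p ∣ M') (hℓ : ℓ.Prime) (hℓp : ℓ ≠ p) :
    ¬ p ∣ M' * ℓ := by
  intro h
  rcases hp.dvd_mul.1 h with h | h
  · exact hpM h
  · exact hℓp ((Nat.prime_dvd_prime_iff_eq hp hℓ).1 h).symm

/-- **`T_ℓ`-product formula for `W_p`**, `ℓ ∤ M'p`, `ℓ ≠ p`. -/
theorem Wp_prod_T (hℓ : ℓ.Prime) (hℓN : ¬ ℓ ∣ M' * p) (ζ : Kbarˣ) (hζ : IsPrimitiveRoot ζ ℓ)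
    (f : FF (M' * p)) :
    qExpand Kbar ℓ (Wp M' p hp hpM (normAlong (heckeAlphaBar Kbar (M' * p) ℓ)
        (heckeBetaBar Kbar (M' * p) ℓ f))) =
      (∏ b ∈ Finset.range ℓ, twistU (ζ ^ b) (Wp M' p hp hpM f)) *
        qExpand Kbar (ℓ ^ 2) (Wp M' p hp hpM f) := by
  have hℓp : ℓ ≠ p := fun h => hℓN (h ▸ dvd_mul_left ℓ M')
  have hpMℓ := not_dvd_mul_of_ne M' p ℓ hp hpM hℓ hℓp
  exact qExpand_equiv_normAlong_alpha_beta hℓ hℓN ζ hζ (alBar M' p hp hpM).toRingEquiv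
    (alBarUp M' p ℓ hp hpMℓ) (alBarUp_alpha M' p ℓ hp hpM hpMℓ) (alBarUp_beta M' p ℓ hp hpM hpMℓ) f

/-- **`U_ℓ`-product formula for `W_p`**, `ℓ ∣ M'p`, `ℓ ≠ p`. -/
theorem Wp_prod_U (hℓ : ℓ.Prime) (hℓN : ℓ ∣ M' * p) (hℓp : ℓ ≠ p) (ζ : Kbarˣ)
    (hζ : IsPrimitiveRoot ζ ℓ) (f : FF (M' * p)) :
    qExpand Kbar ℓ (Wp M' p hp hpM (normAlong (heckeBetaBar Kbar (M' * p) ℓ)
        (heckeAlphaBar Kbar (M' * p) ℓ f))) =
      ∏ b ∈ Finset.range ℓ, twistU (ζ ^ b) (Wp M' p hp hpM f) := by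
  have hpMℓ := not_dvd_mul_of_ne M' p ℓ hp hpM hℓ hℓp
  exact qExpand_equiv_normAlong_beta_alpha_of_dvd (L := Kbar) hℓ hℓN hζ
    (alBar M' p hp hpM).toRingEquiv
    (alBarUp M' p ℓ hp hpMℓ) (alBarUp_alpha M' p ℓ hp hpM hpMℓ) (alBarUp_beta M' p ℓ hp hpM hpMℓ) f

end Up

section Final

variable {A : ValuationSubring Kbar} {M' p : ℕ} [NeZero M'] [NeZero p] {hp : p.Prime}
  {hpM : ¬ p ∣ M'} [CharP (Kap A) p]

omit [NeZero M'] [NeZero p] in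
theorem ne_of_cast_ne_zero {ℓ : ℕ} (hℓp : (ℓ : Kap A) ≠ 0) : ℓ ≠ p := by
  rintro rfl
  exact hℓp (CharP.cast_eq_zero (Kap A) ℓ)

/-- **`T_ℓ`-equivariance of `δ₂`** (`ℓ ∤ M'p`, `ℓ` invertible in `κ`), unconditional. -/
theorem delta2_heckeT (ℓ : Nat.Primes) (hℓN : ¬ (ℓ : ℕ) ∣ M' * p)
    (hℓp : ((ℓ : ℕ) : Kap A) ≠ 0) (x : Pic0.torsion Kbar (FF (M' * p)) p)
    (h : heckeOperatorBar (M' * p) ℓ (x : Pic0 Kbar (FF (M' * p))) ∈
      Pic0.torsion Kbar (FF (M' * p)) p) :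
    delta2 A M' p hp hpM ⟨heckeOperatorBar (M' * p) ℓ (x : Pic0 Kbar (FF (M' * p))), h⟩ =
      (haveI : NeZero (ℓ : ℕ) := ⟨ℓ.2.ne_zero⟩; heckeT2 (ℓ : ℕ) (delta2 A M' p hp hpM x)) := by
  have : NeZero (ℓ : ℕ) := ⟨ℓ.2.ne_zero⟩
  exact delta2_heckeT_of_prod ℓ hℓp
    (fun ζ hζ f => Wp_prod_T M' p (ℓ : ℕ) hp hpM ℓ.2 hℓN ζ hζ f) x h

/-- **`U_ℓ`-equivariance of `δ₂`** for `β_* α^*` (`ℓ ∣ M'p`, `ℓ` invertible in `κ`),
unconditional. -/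
theorem delta2_heckeU {ℓ : ℕ} [NeZero ℓ] (hℓ : ℓ.Prime) (hℓN : ℓ ∣ M' * p)
    (hℓp : (ℓ : Kap A) ≠ 0)
    [HasPrincipalDivisors Qb (laurentBaseChange Qb (modularFunctionFieldFull (M' * p * ℓ)))]
    (hα : HeckeAlphaBarIntegral Qb (M' * p) ℓ) (hβ : HeckeBetaBarIntegral Qb (M' * p) ℓ)
    (hFI : FundamentalIdentityAlong Qb (heckeAlphaBar Qb (M' * p) ℓ) hα)
    (hfin : FiniteAlong Qb (heckeBetaBar Qb (M' * p) ℓ))
    (hN : NormFormulaAlong Qb (heckeBetaBar Qb (M' * p) ℓ) hfin)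
    (x : Pic0.torsion Kbar (FF (M' * p)) p)
    (h : heckePic0BarTranspose hα hβ hFI hfin hN (x : Pic0 Kbar (FF (M' * p))) ∈
      Pic0.torsion Kbar (FF (M' * p)) p) :
    delta2 A M' p hp hpM
        ⟨heckePic0BarTranspose hα hβ hFI hfin hN (x : Pic0 Kbar (FF (M' * p))), h⟩ =
      Uop ℓ (delta2 A M' p hp hpM x) := by
  obtain ⟨ζ, hζ⟩ := exists_primitiveRoot_unit' ℓ
  exact delta2_heckeU_of_prod hℓ hℓp hα hβ hFI hfin hN ζ hζ
    (fun f => Wp_prod_U M' p ℓ hp hpM hℓ hℓN (ne_of_cast_ne_zero (A := A) hℓp) ζ hζ f) x h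

/-- **Transport of the occurrence subgroup, side 2.**  Let `U` be a family of `U_2`-operators
with `U (M'p) = β_* α^*` (prime `2 ∣ M'p`).  For `x ∈ OccSub U (M'p) p good a C`, where the good
primes do not divide `M'p` and are invertible in `κ`, the `q`-series `y = δ₂ x` satisfies
`heckeT2 ℓ y = a_ℓ • y` for all good `ℓ` and `c(Uop 2) y = 0` for all `c ∈ C`. -/
theorem occ_delta2 (h2N : 2 ∣ M' * p) (h2 : ((2 : ℕ) : Kap A) ≠ 0) (U : UFamily)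
    [HasPrincipalDivisors Qb (laurentBaseChange Qb (modularFunctionFieldFull (M' * p * 2)))]
    (hα : HeckeAlphaBarIntegral Qb (M' * p) 2) (hβ : HeckeBetaBarIntegral Qb (M' * p) 2)
    (hFI : FundamentalIdentityAlong Qb (heckeAlphaBar Qb (M' * p) 2) hα)
    (hfin : FiniteAlong Qb (heckeBetaBar Qb (M' * p) 2))
    (hN : NormFormulaAlong Qb (heckeBetaBar Qb (M' * p) 2) hfin)
    (hU : ∀ x : JZero (M' * p), U (M' * p) x = heckePic0BarTranspose hα hβ hFI hfin hN x)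
    (good : ℕ → Prop) (a : ℕ → ℤ) (C : Set (Polynomial ℤ))
    (hgood : ∀ ℓ : ℕ, good ℓ → ¬ ℓ ∣ M' * p ∧ (ℓ : Kap A) ≠ 0)
    (x : JZero (M' * p)) (hx : x ∈ OccSub U (M' * p) p good a C) :
    ∃ hx' : x ∈ Pic0.torsion Kbar (FF (M' * p)) p,
      (∀ ℓ : Nat.Primes, good ℓ →
        (haveI : NeZero (ℓ : ℕ) := ⟨ℓ.2.ne_zero⟩;
          heckeT2 (ℓ : ℕ) (delta2 A M' p hp hpM ⟨x, hx'⟩)) =
          a ℓ • delta2 A M' p hp hpM ⟨x, hx'⟩) ∧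
      ∀ c ∈ C, Polynomial.aeval (UopEnd (k := Kap A) 2) c (delta2 A M' p hp hpM ⟨x, hx'⟩) = 0 := by
  have hTH : ∀ z ∈ Pic0.torsion Kbar (FF (M' * p)) p,
      U (M' * p) z ∈ Pic0.torsion Kbar (FF (M' * p)) p := by
    intro z hz
    rw [hU]
    exact map_mem_torsion _ hz
  refine occ_of_equivariant (delta2 A M' p hp hpM) U good a C hTH ?_ ?_ x hx
  · intro ℓ hℓ y h
    exact delta2_heckeT ℓ (hgood ℓ hℓ).1 (hgood ℓ hℓ).2 y h
  · intro z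
    have key := delta2_heckeU (A := A) (hp := hp) (hpM := hpM) Nat.prime_two h2N h2 hα hβ hFI hfin
      hN z (map_mem_torsion _ z.2)
    rw [← key]
    congr 1
    exact Subtype.ext (hU _)

end Final

end Fermat.Agent.T1B.Hecke3
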