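/-
T1B / F8 HECKE-N (brick 528, helper3), slice S4 'DELTA': PACKAGING for `Local66.Assembly.LocalGeom`.

* `heckeUT N ℓ hℓ : J₀(N)(ℚbar) →+ J₀(N)(ℚbar)` := `β_* α^*` at a prime `ℓ` (all inputs from
  `DivNorm27`), and the family `U2Fam : Top68.UFamily` (`U2Fam N = heckeUT N 2`): THE `U_2` of the
  chain EMBED44 / LOCAL44 / LIFT0;
* `TDq k : Nat.Primes → Module.End ℤ k((q))` (`= heckeT2 ℓ`), `UopEnd 2` (`= Hol13.U2End`);
* `deltaSide A M' p hp hpM : Fin 2 → J₀(M'p)[p] →+ κ((q))` (`0 ↦ δ₁`, `1 ↦ δ₂`);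
* `deltaSide_heckeT`, `deltaSide_heckeU` : the fields `δ_T`, `δ_U` of `Local66.Assembly.LocalGeom`
  (v4: detectors on the full `p`-torsion `torsP N p = Pic0.torsion ℚbar (FF N) p`; for
  `UN := U2Fam (M' * p)`, `TD := TDq (Kap A)`, `UD := UopEnd 2`), verbatim.  This file does not
  import `Local66`.
-/
import Mathlib
import Fermat.Agent.T1B.Hecke3.DeltaFinal2b

set_option autoImplicit false
set_option linter.unusedSectionVars false

noncomputable section

namespace Fermat.Agent.T1B.Hecke3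

open HahnSeries ModularCurve AlgebraicCurve IntermediateField
open Fermat.Agent.X0 Fermat.Agent.T1B.Hecke7 Fermat.Agent.T1B.DivNorm27
open Fermat.Agent.ES.HECKE.InputsMain19 Fermat.Agent.T1B.Top68

/-! ### the operator `U_ℓ = β_* α^*` -/

/-- **`U_ℓ := β_* α^*`** on `J₀(N)(ℚbar)` at a prime `ℓ`. -/
def heckeUT (N ℓ : ℕ) [NeZero N] [NeZero ℓ] (hℓ : ℓ.Prime) : JZero N →+ JZero N :=
  haveI := hasPrincipalDivisors_level N ℓ
  heckePic0BarTranspose (heckeAlphaBarIntegral_all N ℓ hℓ) (heckeBetaBarIntegral_all N ℓ hℓ)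
    (fundamentalIdentityAlong_alpha_all N ℓ hℓ) (finiteAlong_beta_all N ℓ hℓ)
    (normFormulaAlong_beta_all N ℓ hℓ)

/-- **The family of `U_2`-operators** `β_* α^*`. -/
def U2Fam : UFamily := fun N' _ => (heckeUT N' 2 Nat.prime_two).toIntLinearMap

theorem U2Fam_apply (N : ℕ) [NeZero N] (x : JZero N) :
    U2Fam N x = heckeUT N 2 Nat.prime_two x := rfl

/-- `heckeT2 ℓ` as a family of `ℤ`-linear endomorphisms of `k((q))`. -/
def TDq (k : Type*) [Field k] : Nat.Primes → Module.End ℤ (LaurentSeries k) := fun ℓ =>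
  haveI : NeZero (ℓ : ℕ) := ⟨ℓ.2.ne_zero⟩
  (heckeT2Hom (ℓ : ℕ)).toIntLinearMap

theorem TDq_apply (k : Type*) [Field k] (ℓ : Nat.Primes) (g : LaurentSeries k) :
    TDq k ℓ g = (haveI : NeZero (ℓ : ℕ) := ⟨ℓ.2.ne_zero⟩; heckeT2 (ℓ : ℕ) g) := rfl

section Cast

variable {k : Type*} [Field k] {p : ℕ} [CharP k p]

/-- a prime `ℓ ≠ p` is invertible in characteristic `p`. -/
theorem cast_ne_zero_of_prime_ne (hp : p.Prime) {ℓ : ℕ} (hℓ : ℓ.Prime) (h : ℓ ≠ p) :
    (ℓ : k) ≠ 0 := by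
  intro h0
  rw [CharP.cast_eq_zero_iff k p] at h0
  exact h ((Nat.prime_dvd_prime_iff_eq hp hℓ).1 h0).symm

end Cast

/-! ### the two detectors -/

section Det

variable (A : ValuationSubring Kbar) (M' p : ℕ) [NeZero M'] [NeZero p] (hp : p.Prime)
  (hpM : ¬ p ∣ M') [CharP (Kap A) p]

/-- The two `q`-dlogs: side `0` = cusp `∞`, side `1` = cusp `w_p(∞)`. -/
def deltaSide : Fin 2 → ↥(Pic0.torsion Kbar (FF (M' * p)) p) →+ LaurentSeries (Kap A) :=
  Fin.cases (delta1 A p (M' * p)) (fun _ => delta2 A M' p hp hpM)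

@[simp] theorem deltaSide_zero : deltaSide A M' p hp hpM 0 = delta1 A p (M' * p) := rfl

@[simp] theorem deltaSide_one : deltaSide A M' p hp hpM 1 = delta2 A M' p hp hpM := rfl

variable {A M' p hp hpM}

theorem deltaSide_heckeT (i : Fin 2) (ℓ : Nat.Primes) (hℓN : ¬ (ℓ : ℕ) ∣ M' * p)
    (x : ↥(Pic0.torsion Kbar (FF (M' * p)) p))
    (h : heckeOperatorBar (M' * p) ℓ (x : JZero (M' * p)) ∈ Pic0.torsion Kbar (FF (M' * p)) p) :
    deltaSide A M' p hp hpM i ⟨heckeOperatorBar (M' * p) ℓ (x : JZero (M' * p)), h⟩ =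
      TDq (Kap A) ℓ (deltaSide A M' p hp hpM i x) := by
  have hℓp : ((ℓ : ℕ) : Kap A) ≠ 0 :=
    cast_ne_zero_of_prime_ne hp ℓ.2 (fun h => hℓN (h ▸ dvd_mul_left _ M'))
  induction i using Fin.cases with
  | zero => exact delta1_heckeT ℓ hℓN hℓp x h
  | succ i =>
    have hi : i = 0 := Subsingleton.elim _ _
    subst hi
    exact delta2_heckeT ℓ hℓN hℓp x h

theorem deltaSide_heckeU (h2N : 2 ∣ M' * p) (hp2 : p ≠ 2) (i : Fin 2)
    (x : ↥(Pic0.torsion Kbar (FF (M' * p)) p))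
    (h : U2Fam (M' * p) (x : JZero (M' * p)) ∈ Pic0.torsion Kbar (FF (M' * p)) p) :
    deltaSide A M' p hp hpM i ⟨U2Fam (M' * p) (x : JZero (M' * p)), h⟩ =
      UopEnd 2 (deltaSide A M' p hp hpM i x) := by
  have h2 : ((2 : ℕ) : Kap A) ≠ 0 :=
    cast_ne_zero_of_prime_ne hp Nat.prime_two (fun h => hp2 h.symm)
  have := hasPrincipalDivisors_level (M' * p) 2
  induction i using Fin.cases with
  | zero =>
    exact delta1_heckeU Nat.prime_two h2N h2
      (heckeAlphaBarIntegral_all (M' * p) 2 Nat.prime_two)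
      (heckeBetaBarIntegral_all (M' * p) 2 Nat.prime_two)
      (fundamentalIdentityAlong_alpha_all (M' * p) 2 Nat.prime_two)
      (finiteAlong_beta_all (M' * p) 2 Nat.prime_two)
      (normFormulaAlong_beta_all (M' * p) 2 Nat.prime_two) x h
  | succ i =>
    have hi : i = 0 := Subsingleton.elim _ _
    subst hi
    exact delta2_heckeU Nat.prime_two h2N h2
      (heckeAlphaBarIntegral_all (M' * p) 2 Nat.prime_two)
      (heckeBetaBarIntegral_all (M' * p) 2 Nat.prime_two)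
      (fundamentalIdentityAlong_alpha_all (M' * p) 2 Nat.prime_two)
      (finiteAlong_beta_all (M' * p) 2 Nat.prime_two)
      (normFormulaAlong_beta_all (M' * p) 2 Nat.prime_two) x h

end Det

end Fermat.Agent.T1B.Hecke3
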