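/-
T1B / F8 HECKE-N (brick 528, helper3), slice S4 'DELTA': the two sides as ONE family.

`N = M' * p`, `p ∤ M'`.  The two detectors `deltaSide A M' p hp hpM i` (`Hecke3/Pack.lean`) are the
generic `delta A e p HD` of `Hecke3/Delta.lean` for the two expansions
`expSide M' p hp hpM i : FF (M'*p) →+* ℚbar((q))` (`0 ↦` the `q`-expansion at `∞`,
`1 ↦` the Atkin–Lehner expansion `W_p` at the cusp `w_p(∞)`).  So every statement proved for a generic
`HD : DeltaInputs A e p` (KER: `Ker85`, HOL: `Hol80`) specialises to both sides at once:

* `expSide`, `expSide_zero`, `expSide_one`, `expSide_const`;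
* `deltaInputsSide A M' p hp hpM i : DeltaInputs A (expSide M' p hp hpM i) p`;
* `deltaSide_eq_delta : deltaSide A M' p hp hpM i = delta A (expSide … i) p (deltaInputsSide … i)`;
* `deltaSide_eq` : the value on a presented class, `deltaSide i x = dl A (expSide i f)`;
* `deltaSide_eq_zero_iff_forall` : both detectors vanish iff both generic `delta` vanish.
-/
import Mathlib
import Fermat.Agent.T1B.Hecke3.Pack

set_option autoImplicit false
set_option linter.unusedSectionVars false

noncomputable section

namespace Fermat.Agent.T1B.Hecke3

open HahnSeries ModularCurve AlgebraicCurve IntermediateField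
open Fermat.Agent.X0 Fermat.Agent.T1B.ALP90.AL1

section Side

variable (A : ValuationSubring Kbar) (M' p : ℕ) [NeZero M'] [NeZero p] (hp : p.Prime)
  (hpM : ¬ p ∣ M') [CharP (Kap A) p]

/-- The two expansions of `FF (M'*p)`: at `∞` and at `w_p(∞)`. -/
def expSide : Fin 2 → FF (M' * p) →+* LaurentSeries Kbar :=
  Fin.cases (iotaHom (M' * p)) (fun _ => Wp M' p hp hpM)

@[simp] theorem expSide_zero : expSide M' p hp hpM 0 = iotaHom (M' * p) := rfl

@[simp] theorem expSide_one : expSide M' p hp hpM 1 = Wp M' p hp hpM := rfl

/-- **The inputs of `delta` hold on both sides.** -/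
theorem deltaInputsSide (i : Fin 2) : DeltaInputs A (expSide M' p hp hpM i) p := by
  induction i using Fin.cases with
  | zero => exact deltaInputs1 A p (M' * p)
  | succ i =>
    have hi : i = 0 := Subsingleton.elim _ _
    subst hi
    exact deltaInputs2 A M' p hp hpM

theorem expSide_const (i : Fin 2) (c : Kbar) :
    expSide M' p hp hpM i (algebraMap Kbar (FF (M' * p)) c) = HahnSeries.C c := by
  induction i using Fin.cases with
  | zero => exact Fermat.Agent.T1B.Hecke87.iota_const (M' * p) c
  | succ i =>
    have hi : i = 0 := Subsingleton.elim _ _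
    subst hi
    exact Wp_const M' p hp hpM c

/-- **The two detectors are the generic `delta` of the two expansions.** -/
theorem deltaSide_eq_delta (i : Fin 2) :
    deltaSide A M' p hp hpM i =
      delta A (expSide M' p hp hpM i) p (deltaInputsSide A M' p hp hpM i) := by
  induction i using Fin.cases with
  | zero => rfl
  | succ i =>
    have hi : i = 0 := Subsingleton.elim _ _
    subst hi
    rfl

variable {A M' p hp hpM}

/-- The value of `deltaSide i` on a presented class. -/
theorem deltaSide_eq (i : Fin 2) (x : Pic0.torsion Kbar (FF (M' * p)) p)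
    {D : Divisor.degZero (K := Kbar) (F := FF (M' * p))} {f : FF (M' * p)}
    (h : IsPData (K := Kbar) p (x : Pic0 Kbar (FF (M' * p))) D f) :
    deltaSide A M' p hp hpM i x = dl A (expSide M' p hp hpM i f) := by
  rw [deltaSide_eq_delta]
  exact delta_eq (deltaInputsSide A M' p hp hpM i) x h

/-- A property of the generic `delta` on both sides is a property of `deltaSide`. -/
theorem deltaSide_of_delta {P : Fin 2 → LaurentSeries (Kap A) → Prop}
    (x : Pic0.torsion Kbar (FF (M' * p)) p)
    (h : ∀ i, P i (delta A (expSide M' p hp hpM i) p (deltaInputsSide A M' p hp hpM i) x))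
    (i : Fin 2) : P i (deltaSide A M' p hp hpM i x) := by
  rw [deltaSide_eq_delta]
  exact h i

/-- Vanishing of both detectors, in terms of the generic `delta`. -/
theorem deltaSide_eq_zero_iff_forall (x : Pic0.torsion Kbar (FF (M' * p)) p) :
    (∀ i, deltaSide A M' p hp hpM i x = 0) ↔
      ∀ i, delta A (expSide M' p hp hpM i) p (deltaInputsSide A M' p hp hpM i) x = 0 := by
  refine forall_congr' fun i => ?_
  rw [deltaSide_eq_delta]

end Side

end Fermat.Agent.T1B.Hecke3
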