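/-
T1B / F8 HECKE-N (brick 528, helper3): the family `U2Fam` of `Hecke3/Pack` IS the classical family
`KumU48.heckeUFamily` (helper48) at every even level; the field `δ_U` of `LocalGeom` restated for
`UN := KumU48.heckeUFamily (M' * p)`.
-/
import Mathlib
import Fermat.Agent.T1B.Hecke3.Pack
import Fermat.Agent.T1B.KumU48.UFamily

set_option autoImplicit false
set_option linter.unusedSectionVars false

noncomputable section

namespace Fermat.Agent.T1B.Hecke3

open HahnSeries ModularCurve AlgebraicCurve IntermediateField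
open Fermat.Agent.X0 Fermat.Agent.T1B.Hecke7 Fermat.Agent.T1B.DivNorm27
open Fermat.Agent.ES.HECKE.InputsMain19 Fermat.Agent.T1B.Top68
open Fermat.Agent.T1B.KumU48

/-- **`KumU48.heckeUFamily = Hecke3.U2Fam` at even level.** -/
theorem heckeUFamily_eq_U2Fam (N : ℕ) [NeZero N] (h : 2 ∣ N) : heckeUFamily N = U2Fam N := by
  rw [heckeUFamily_apply_of_dvd N h]
  rfl

section Pack

variable {A : ValuationSubring Kbar} {M' p : ℕ} [NeZero M'] [NeZero p] {hp : p.Prime}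
  {hpM : ¬ p ∣ M'} [CharP (Kap A) p]

/-- **Field `δ_U` of `LocalGeom`** for `UN := KumU48.heckeUFamily (M' * p)`, `UD := UopEnd 2`. -/
theorem deltaSide_heckeU' (h2N : 2 ∣ M' * p) (hp2 : p ≠ 2) (i : Fin 2)
    (x : JZero (M' * p)) (hx : x ∈ Pic0.torsion Kbar (FF (M' * p)) p)
    (hx' : heckeUFamily (M' * p) x ∈ Pic0.torsion Kbar (FF (M' * p)) p) :
    deltaSide A M' p hp hpM i ⟨_, hx'⟩ = UopEnd 2 (deltaSide A M' p hp hpM i ⟨x, hx⟩) := by
  have e := heckeUFamily_eq_U2Fam (M' * p) h2N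
  have hUx' : U2Fam (M' * p) x ∈ Pic0.torsion Kbar (FF (M' * p)) p := by rw [← e]; exact hx'
  rw [← deltaSide_heckeU h2N hp2 i ⟨x, hx⟩ hUx']
  congr 1
  exact Subtype.ext (congrArg (fun f : Module.End ℤ (JZero (M' * p)) => f x) e)

/-- **Field `δ_T` of `LocalGeom`**, elementwise form. -/
theorem deltaSide_heckeT' (i : Fin 2) (ℓ : Nat.Primes) (hℓN : ¬ (ℓ : ℕ) ∣ M' * p)
    (x : JZero (M' * p)) (hx : x ∈ Pic0.torsion Kbar (FF (M' * p)) p)
    (hx' : heckeOperatorBar (M' * p) ℓ x ∈ Pic0.torsion Kbar (FF (M' * p)) p) :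
    deltaSide A M' p hp hpM i ⟨_, hx'⟩ = TDq (Kap A) ℓ (deltaSide A M' p hp hpM i ⟨x, hx⟩) :=
  deltaSide_heckeT i ℓ hℓN ⟨x, hx⟩ hx'

end Pack

end Fermat.Agent.T1B.Hecke3
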