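/-
T1B / F8 HECKE-N (brick 528, helper3): the detector fields `δ_T`, `δ_U` of
`Local66.Assembly.LocalGeom` in helper68's FINAL parameters (`Top68/Assemble`, `LOCALGEOMStd`):
`UN := Degen21.UFam.uTwo (M' * p)`, `TD := Top68.heckeT2End κ`, `UD := Hol13.U2End κ`,
`κ := Kap A = IsLocalRing.ResidueField ↥A`.

* `TDq_eq_heckeT2End`, `UopEnd_two_eq_U2End` : the parameters of `Hecke3/Pack` are those of `Top68`
  (`rfl`);
* `uTwo_eq_U2Fam` : `Degen21.UFam.uTwo N = Hecke3.U2Fam N` at even level;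
* `deltaSide_heckeT_top`, `deltaSide_heckeU_top` : the two fields, verbatim.
-/
import Mathlib
import Fermat.Agent.T1B.Hecke3.UFamBridge
import Fermat.Agent.T1B.Top68.HolParams
import Fermat.Agent.T1B.KumU78.Bridge

set_option autoImplicit false
set_option linter.unusedSectionVars false

noncomputable section

namespace Fermat.Agent.T1B.Hecke3

open HahnSeries ModularCurve AlgebraicCurve IntermediateField
open Fermat.Agent.X0 Fermat.Agent.T1B.Hecke7 Fermat.Agent.T1B.Top68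
open Fermat.Agent.T1B.Degen21.UFam

theorem TDq_eq_heckeT2End (κ : Type*) [Field κ] : TDq κ = Top68.heckeT2End κ := rfl

theorem UopEnd_two_eq_U2End (κ : Type*) [Field κ] :
    (UopEnd 2 : Module.End ℤ (LaurentSeries κ)) = Hol13.U2End κ := rfl

/-- `Degen21.UFam.uTwo = Hecke3.U2Fam` at even level. -/
theorem uTwo_eq_U2Fam (N : ℕ) [NeZero N] (h : 2 ∣ N) : uTwo N = U2Fam N := by
  rw [Fermat.Agent.T1B.KumU78.uTwo_eq_heckeUFamily N h, heckeUFamily_eq_U2Fam N h]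

variable {A : ValuationSubring Kbar} {M' p : ℕ} [NeZero M'] [NeZero p] {hp : p.Prime}
  {hpM : ¬ p ∣ M'} [CharP (Kap A) p]

/-- **Field `δ_T` of `LocalGeom`** for `TD := Top68.heckeT2End (Kap A)`. -/
theorem deltaSide_heckeT_top (i : Fin 2) (ℓ : Nat.Primes) (hℓN : ¬ (ℓ : ℕ) ∣ M' * p)
    (x : JZero (M' * p)) (hx : x ∈ Pic0.torsion Kbar (FF (M' * p)) p)
    (hx' : heckeOperatorBar (M' * p) ℓ x ∈ Pic0.torsion Kbar (FF (M' * p)) p) :
    deltaSide A M' p hp hpM i ⟨_, hx'⟩ =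
      Top68.heckeT2End (Kap A) ℓ (deltaSide A M' p hp hpM i ⟨x, hx⟩) :=
  deltaSide_heckeT' i ℓ hℓN x hx hx'

/-- **Field `δ_U` of `LocalGeom`** for `UN := uTwo (M' * p)`, `UD := Hol13.U2End (Kap A)`. -/
theorem deltaSide_heckeU_top (h2N : 2 ∣ M' * p) (hp2 : p ≠ 2) (i : Fin 2)
    (x : JZero (M' * p)) (hx : x ∈ Pic0.torsion Kbar (FF (M' * p)) p)
    (hx' : uTwo (M' * p) x ∈ Pic0.torsion Kbar (FF (M' * p)) p) :
    deltaSide A M' p hp hpM i ⟨_, hx'⟩ =
      Hol13.U2End (Kap A) (deltaSide A M' p hp hpM i ⟨x, hx⟩) := by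
  have e := uTwo_eq_U2Fam (M' * p) h2N
  have hUx' : U2Fam (M' * p) x ∈ Pic0.torsion Kbar (FF (M' * p)) p := by rw [← e]; exact hx'
  have key := deltaSide_heckeU (A := A) (hp := hp) (hpM := hpM) h2N hp2 i ⟨x, hx⟩ hUx'
  rw [UopEnd_two_eq_U2End] at key
  rw [← key]
  exact congrArg (deltaSide A M' p hp hpM i)
    (Subtype.ext (congrArg (fun f : Module.End ℤ (JZero (M' * p)) => f x) e))

end Fermat.Agent.T1B.Hecke3
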